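/-
Programme JAC (S25), brick R1 (helper32): the base change `C × U ⟶ C × T` of an open `U ⊆ T`
is an open immersion with range the preimage of `U`; compatibilities with the rigidifying section.
-/
import Mathlib
import Fermat.Agent.Jac.RepInterface

set_option autoImplicit false

universe u

open CategoryTheory CategoryTheory.Limits AlgebraicGeometry AlgebraicGeometry.RelPicard
  NeronModelInfra

namespace Fermat.Agent.Jac.Functor32

noncomputable section

variable {k : Type u} [Field k] {C : Scheme.{u}} {c : C ⟶ Spec (CommRingCat.of k)}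
  {ε : SchemeHomOver (𝟙 (Spec (CommRingCat.of k))) c}

instance isOpenImmersion_baseChangeSnd {T T' : Scheme.{u}} {t : T ⟶ Spec (CommRingCat.of k)}
    {t' : T' ⟶ Spec (CommRingCat.of k)} (s : SchemeHomOver t' t) [IsOpenImmersion s.1] :
    IsOpenImmersion (baseChangeSnd c s) := by
  unfold baseChangeSnd
  infer_instance

theorem range_baseChangeSnd {T T' : Scheme.{u}} {t : T ⟶ Spec (CommRingCat.of k)}
    {t' : T' ⟶ Spec (CommRingCat.of k)} (s : SchemeHomOver t' t) :
    Set.range (baseChangeSnd c s) = (pullback.snd c t) ⁻¹' Set.range s.1 := by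
  unfold baseChangeSnd
  rw [Scheme.Pullback.range_map]
  simp

variable {T : Scheme.{u}} (t : T ⟶ Spec (CommRingCat.of k))

instance (U : T.Opens) : IsOpenImmersion (openIncl t U).1 :=
  inferInstanceAs (IsOpenImmersion U.ι)

instance {V U : T.Opens} (h : V ≤ U) : IsOpenImmersion (openInclLE t h).1 :=
  inferInstanceAs (IsOpenImmersion (T.homOfLE h))

theorem opensRange_baseChangeSnd_openIncl (U : T.Opens) :
    (baseChangeSnd c (openIncl t U)).opensRange = (pullback.snd c t) ⁻¹ᵁ U := by
  ext x
  change x ∈ Set.range (baseChangeSnd c (openIncl t U)) ↔ _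
  rw [range_baseChangeSnd]
  change (pullback.snd c t) x ∈ Set.range U.ι ↔ _
  rw [Scheme.Opens.range_ι]
  rfl

theorem baseChangeSnd_openInclLE_comp {V U : T.Opens} (h : V ≤ U) :
    baseChangeSnd c (openInclLE t h) ≫ baseChangeSnd c (openIncl t U) =
      baseChangeSnd c (openIncl t V) := by
  rw [baseChangeSnd_comp]
  congr 1
  apply Subtype.ext
  exact T.homOfLE_ι h

theorem rigSection_snd : rigSection c t ε ≫ pullback.snd c t = 𝟙 T := by
  unfold rigSection
  exact pullback.lift_snd _ _ _

theorem rigSection_openIncl (U : T.Opens) :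
    rigSection c (U.ι ≫ t) ε ≫ baseChangeSnd c (openIncl t U) = U.ι ≫ rigSection c t ε :=
  rigSection_baseChangeSnd c ε (openIncl t U)

theorem rigSection_openInclLE {V U : T.Opens} (h : V ≤ U) :
    rigSection c (V.ι ≫ t) ε ≫ baseChangeSnd c (openInclLE t h) =
      T.homOfLE h ≫ rigSection c (U.ι ≫ t) ε :=
  rigSection_baseChangeSnd c ε (openInclLE t h)

theorem iSup_opensRange_baseChangeSnd {ι : Type*} (U : ι → T.Opens) (hU : ⨆ i, U i = ⊤) :
    ⨆ i, (baseChangeSnd c (openIncl t (U i))).opensRange = ⊤ := by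
  simp_rw [opensRange_baseChangeSnd_openIncl]
  rw [eq_top_iff]
  intro x _
  have hx : (pullback.snd c t) x ∈ (⨆ i, U i : T.Opens) := by rw [hU]; trivial
  obtain ⟨i, hi⟩ := TopologicalSpace.Opens.mem_iSup.mp hx
  exact TopologicalSpace.Opens.mem_iSup.mpr ⟨i, hi⟩

/-- **Hypothesis (HΓ)**: functions on `C × T` are determined by their restriction to the
rigidifying section (equivalently `Γ(C × T, 𝒪) = Γ(T, 𝒪)`), for every base `T`. -/
def HGamma (c : C ⟶ Spec (CommRingCat.of k))
    (ε : SchemeHomOver (𝟙 (Spec (CommRingCat.of k))) c) : Prop :=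
  ∀ {T : Scheme.{u}} (t : T ⟶ Spec (CommRingCat.of k)),
    Function.Injective ((rigSection c t ε).appTop : Γ(pullback c t, ⊤) → Γ(T, ⊤))

end

end Fermat.Agent.Jac.Functor32
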