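/-
Programme JAC (S25), brick R1 (helper32): the "big" Hom-presheaf of two modules on a scheme.

For `M N : X.Modules` and an `X`-scheme `v : Y ⟶ X`, consider the morphisms
`(pullback v).obj M ⟶ (pullback v).obj N`.  For `q : Z ⟶ Y` with `q ≫ v = w` such a morphism is
transported to `(pullback w).obj M ⟶ (pullback w).obj N` (`homAlong`).  This is functorial in the
morphism and strictly functorial in `q` (`homAlong_homAlong`, `homAlong_id'`); all the
pseudo-functor coherence of `Scheme.Modules.pullback` needed later is encapsulated here.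
-/
import Mathlib

set_option autoImplicit false

universe u

open CategoryTheory AlgebraicGeometry

namespace Fermat.Agent.Jac.Functor32

open Scheme.Modules

noncomputable section

variable {X Y Z W : Scheme.{u}}

/-- The canonical isomorphism `q^* v^* M ≅ w^* M` for `q ≫ v = w`. -/
def compIso (q : Z ⟶ Y) {v : Y ⟶ X} {w : Z ⟶ X} (h : q ≫ v = w) (M : X.Modules) :
    (pullback q).obj ((pullback v).obj M) ≅ (pullback w).obj M :=
  (pullbackComp q v).app M ≪≫ (pullbackCongr h).app M

theorem pullbackCongr_rfl_app (g : Y ⟶ X) (M : X.Modules) :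
    (pullbackCongr (rfl : g = g)).app M = Iso.refl _ := by
  ext
  simp [pullbackCongr]

theorem compIso_rfl (q : Z ⟶ Y) (v : Y ⟶ X) (M : X.Modules) :
    compIso q (rfl : q ≫ v = q ≫ v) M = (pullbackComp q v).app M := by
  rw [compIso, pullbackCongr_rfl_app, Iso.trans_refl]

theorem compIso_hom_naturality (q : Z ⟶ Y) {v : Y ⟶ X} {w : Z ⟶ X} (h : q ≫ v = w)
    {M N : X.Modules} (φ : M ⟶ N) :
    (pullback q).map ((pullback v).map φ) ≫ (compIso q h N).hom =
      (compIso q h M).hom ≫ (pullback w).map φ := by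
  subst h
  rw [compIso_rfl, compIso_rfl]
  exact (pullbackComp q v).hom.naturality φ

/-- Transport of a morphism between pullbacks along a further morphism. -/
def homAlong (q : Z ⟶ Y) {v : Y ⟶ X} {w : Z ⟶ X} (h : q ≫ v = w) {M N : X.Modules}
    (a : (pullback v).obj M ⟶ (pullback v).obj N) : (pullback w).obj M ⟶ (pullback w).obj N :=
  (compIso q h M).inv ≫ (pullback q).map a ≫ (compIso q h N).hom

@[simp]
theorem homAlong_id (q : Z ⟶ Y) {v : Y ⟶ X} {w : Z ⟶ X} (h : q ≫ v = w) (M : X.Modules) :
    homAlong q h (𝟙 ((pullback v).obj M)) = 𝟙 _ := by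
  simp [homAlong]

theorem homAlong_comp (q : Z ⟶ Y) {v : Y ⟶ X} {w : Z ⟶ X} (h : q ≫ v = w) {M N P : X.Modules}
    (a : (pullback v).obj M ⟶ (pullback v).obj N) (b : (pullback v).obj N ⟶ (pullback v).obj P) :
    homAlong q h (a ≫ b) = homAlong q h a ≫ homAlong q h b := by
  simp [homAlong]

theorem homAlong_map (q : Z ⟶ Y) {v : Y ⟶ X} {w : Z ⟶ X} (h : q ≫ v = w) {M N : X.Modules}
    (φ : M ⟶ N) : homAlong q h ((pullback v).map φ) = (pullback w).map φ := by
  rw [homAlong, compIso_hom_naturality, Iso.inv_hom_id_assoc]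

theorem isIso_homAlong (q : Z ⟶ Y) {v : Y ⟶ X} {w : Z ⟶ X} (h : q ≫ v = w) {M N : X.Modules}
    (a : (pullback v).obj M ⟶ (pullback v).obj N) [IsIso a] : IsIso (homAlong q h a) := by
  unfold homAlong
  infer_instance

/-- Transport of an isomorphism between pullbacks along a further morphism. -/
def isoAlong (q : Z ⟶ Y) {v : Y ⟶ X} {w : Z ⟶ X} (h : q ≫ v = w) {M N : X.Modules}
    (a : (pullback v).obj M ≅ (pullback v).obj N) : (pullback w).obj M ≅ (pullback w).obj N where
  hom := homAlong q h a.hom
  inv := homAlong q h a.inv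
  hom_inv_id := by rw [← homAlong_comp, Iso.hom_inv_id, homAlong_id]
  inv_hom_id := by rw [← homAlong_comp, Iso.inv_hom_id, homAlong_id]

theorem eqToHom_app_comp_pullbackCongr {f g : Y ⟶ X} (e : f = g) (p : pullback f = pullback g)
    (M : X.Modules) : (eqToHom p).app M ≫ (pullbackCongr e.symm).hom.app M = 𝟙 _ := by
  subst e
  simp [pullbackCongr]

/-- Coherence: the canonical isomorphisms `compIso` compose. -/
theorem compIso_comp (q' : W ⟶ Z) (q : Z ⟶ Y) {v : Y ⟶ X} {w : Z ⟶ X} {w' : W ⟶ X}
    (h : q ≫ v = w) (h' : q' ≫ w = w') (M : X.Modules) :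
    (compIso (q' ≫ q) (show (q' ≫ q) ≫ v = w' by rw [Category.assoc, h, h']) M).hom =
      (pullbackComp q' q).inv.app ((pullback v).obj M) ≫
        (pullback q').map (compIso q h M).hom ≫ (compIso q' h' M).hom := by
  subst h
  subst h'
  have hassoc := congrArg (fun t => t.app M) (pseudofunctor_associativity q' q v)
  simp only [NatTrans.comp_app, Functor.whiskerRight_app, Functor.associator_hom_app,
    Functor.whiskerLeft_app, Functor.comp_obj, Category.id_comp] at hassoc
  rw [compIso_rfl, compIso_rfl, compIso]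
  simp only [Iso.trans_hom, Iso.app_hom]
  -- rearrange `hassoc`
  have h1 : (pullbackComp (q' ≫ q) v).hom.app M =
      (pullbackComp q' q).inv.app ((pullback v).obj M) ≫
        (pullback q').map ((pullbackComp q v).hom.app M) ≫
          (pullbackComp q' (q ≫ v)).hom.app M ≫ (eqToHom (by simp) :
            pullback (q' ≫ q ≫ v) ⟶ pullback ((q' ≫ q) ≫ v)).app M := by
    rw [← hassoc]
    simp only [Category.assoc, Iso.hom_inv_id_app_assoc, ← Functor.map_comp_assoc,
      Iso.hom_inv_id_app, Functor.map_id, Category.id_comp]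
    simp
  rw [h1]
  simp only [Category.assoc]
  rw [eqToHom_app_comp_pullbackCongr (Category.assoc q' q v).symm, Category.comp_id]

theorem compIso_comp_iso (q' : W ⟶ Z) (q : Z ⟶ Y) {v : Y ⟶ X} {w : Z ⟶ X} {w' : W ⟶ X}
    (h : q ≫ v = w) (h' : q' ≫ w = w') (M : X.Modules) :
    compIso (q' ≫ q) (show (q' ≫ q) ≫ v = w' by rw [Category.assoc, h, h']) M =
      ((pullbackComp q' q).app ((pullback v).obj M)).symm ≪≫
        (pullback q').mapIso (compIso q h M) ≪≫ compIso q' h' M := by
  ext : 1
  exact compIso_comp q' q h h' M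

/-- **Strict functoriality** of `homAlong`. -/
theorem homAlong_homAlong (q' : W ⟶ Z) (q : Z ⟶ Y) {v : Y ⟶ X} {w : Z ⟶ X} {w' : W ⟶ X}
    (h : q ≫ v = w) (h' : q' ≫ w = w') {M N : X.Modules}
    (a : (pullback v).obj M ⟶ (pullback v).obj N) :
    homAlong q' h' (homAlong q h a) =
      homAlong (q' ≫ q) (show (q' ≫ q) ≫ v = w' by rw [Category.assoc, h, h']) a := by
  have hnat := (pullbackComp q' q).hom.naturality a
  simp only [Functor.comp_map] at hnat
  unfold homAlong
  rw [compIso_comp_iso q' q h h' M, compIso_comp_iso q' q h h' N]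
  simp only [Iso.trans_inv, Iso.trans_hom, Iso.symm_inv, Iso.symm_hom, Iso.app_hom, Iso.app_inv,
    Functor.mapIso_hom, Functor.mapIso_inv, Category.assoc, Functor.map_comp]
  congr 2
  rw [← Category.assoc ((pullbackComp q' q).hom.app _), ← hnat]
  simp

theorem eqToHom_app_eq_pullbackCongr {f g : Y ⟶ X} (e : f = g) (p : pullback f = pullback g)
    (M : X.Modules) : (eqToHom p).app M = (pullbackCongr e).hom.app M := by
  subst e
  simp [pullbackCongr]

theorem compIso_id_hom (v : Y ⟶ X) (K : X.Modules) :
    (compIso (𝟙 Y) (Category.id_comp v) K).hom = (pullbackId Y).hom.app ((pullback v).obj K) := by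
  have hunit := congrArg (fun t => t.app K) (pseudofunctor_right_unitality v)
  simp only [NatTrans.comp_app, Functor.whiskerLeft_app, Functor.rightUnitor_hom_app,
    Functor.comp_obj] at hunit
  rw [eqToHom_app_eq_pullbackCongr (Category.id_comp v)] at hunit
  rw [compIso]
  simp only [Iso.trans_hom, Iso.app_hom]
  rw [← hunit]
  simp

/-- Transport along an identity morphism does nothing. -/
theorem homAlong_id' {v : Y ⟶ X} {M N : X.Modules}
    (a : (pullback v).obj M ⟶ (pullback v).obj N) :
    homAlong (𝟙 Y) (Category.id_comp v) a = a := by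
  have hnat := (pullbackId Y).hom.naturality a
  simp only [Functor.id_map] at hnat
  rw [homAlong, compIso_id_hom, hnat, ← Category.assoc, ← compIso_id_hom, Iso.inv_hom_id,
    Category.id_comp]

end

end Fermat.Agent.Jac.Functor32
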