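/-
Programme JAC (S25), brick R1 (helper32): gluing of morphisms of modules over a cover by open
immersions `g i : Y i ⟶ X` with arbitrary models `Y2 i j` of the overlaps, in `homAlong` form.
(Deduced from helper88's M1a, which is stated for open subschemes.)
-/
import Mathlib
import Fermat.Agent.Jac.Functor32.HomAlong
import Fermat.Agent.Jac.ModGlue88.PullbackForm

set_option autoImplicit false

universe u

open CategoryTheory AlgebraicGeometry

namespace Fermat.Agent.Jac.Functor32

open Scheme.Modules

noncomputable section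

variable {X Y Z : Scheme.{u}}

theorem homAlong_congr {q q' : Z ⟶ Y} (e : q = q') {v : Y ⟶ X} {w : Z ⟶ X} (h : q ≫ v = w)
    (h' : q' ≫ v = w) {M N : X.Modules} (a : (pullback v).obj M ⟶ (pullback v).obj N) :
    homAlong q h a = homAlong q' h' a := by
  subst e
  rfl

theorem pullbackResHom_eq_homAlong {M N : X.Modules} {U' U : X.Opens} (h : U' ≤ U)
    (f : (pullback U.ι).obj M ⟶ (pullback U.ι).obj N) :
    ModGlue88.pullbackResHom h f = homAlong (X.homOfLE h) (X.homOfLE_ι h) f := by
  simp [ModGlue88.pullbackResHom, homAlong, compIso]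

/-- Transport along an isomorphism is injective. -/
theorem homAlong_injective_of_isIso (q : Z ⟶ Y) [IsIso q] {v : Y ⟶ X} {w : Z ⟶ X}
    (h : q ≫ v = w) {M N : X.Modules} :
    Function.Injective (homAlong q h : ((pullback v).obj M ⟶ (pullback v).obj N) → _) := by
  intro a a' haa'
  have h' : inv q ≫ w = v := by rw [← h, IsIso.inv_hom_id_assoc]
  have := congrArg (homAlong (inv q) h') haa'
  rw [homAlong_homAlong, homAlong_homAlong,
    homAlong_congr (IsIso.inv_hom_id q) _ (Category.id_comp v), homAlong_id',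
    homAlong_congr (IsIso.inv_hom_id q) _ (Category.id_comp v), homAlong_id'] at this
  exact this

section RangeLift

variable {Y : Scheme.{u}} (g : Y ⟶ X) [IsOpenImmersion g]

/-- The canonical morphism from the open subscheme `range g` to the source of the open immersion
`g`. -/
def rangeLift : (g.opensRange).toScheme ⟶ Y :=
  IsOpenImmersion.lift g (g.opensRange).ι (by
    rw [Scheme.Opens.range_ι]
    rfl)

@[reassoc (attr := simp)]
theorem rangeLift_fac : rangeLift g ≫ g = (g.opensRange).ι :=
  IsOpenImmersion.lift_fac _ _ _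

/-- The inverse of `rangeLift`. -/
def rangeLiftInv : Y ⟶ (g.opensRange).toScheme :=
  IsOpenImmersion.lift (g.opensRange).ι g (by
    rw [Scheme.Opens.range_ι]
    rfl)

@[reassoc (attr := simp)]
theorem rangeLiftInv_fac : rangeLiftInv g ≫ (g.opensRange).ι = g :=
  IsOpenImmersion.lift_fac _ _ _

@[reassoc (attr := simp)]
theorem rangeLift_inv : rangeLift g ≫ rangeLiftInv g = 𝟙 _ := by
  rw [← cancel_mono (g.opensRange).ι, Category.assoc, rangeLiftInv_fac, rangeLift_fac,
    Category.id_comp]

@[reassoc (attr := simp)]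
theorem rangeLiftInv_lift : rangeLiftInv g ≫ rangeLift g = 𝟙 _ := by
  rw [← cancel_mono g, Category.assoc, rangeLift_fac, rangeLiftInv_fac, Category.id_comp]

instance : IsIso (rangeLift g) :=
  ⟨rangeLiftInv g, rangeLift_inv g, rangeLiftInv_lift g⟩

end RangeLift

section Cover

variable {M N : X.Modules} {κ : Type*} {Y : κ → Scheme.{u}} (g : ∀ i, Y i ⟶ X)
  [∀ i, IsOpenImmersion (g i)]

variable (hcover : ⨆ i, (g i).opensRange = ⊤)
  {Y2 : κ → κ → Scheme.{u}} (π₁ : ∀ i j, Y2 i j ⟶ Y i) (π₂ : ∀ i j, Y2 i j ⟶ Y j)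
  (g2 : ∀ i j, Y2 i j ⟶ X) [∀ i j, IsOpenImmersion (g2 i j)]
  (h₁ : ∀ i j, π₁ i j ≫ g i = g2 i j) (h₂ : ∀ i j, π₂ i j ≫ g j = g2 i j)
  (hrange : ∀ i j, (g i).opensRange ⊓ (g j).opensRange ≤ (g2 i j).opensRange)

/-- The canonical morphism from the intersection of two ranges to the model of the overlap. -/
def overlapLift (hrange : ∀ i j, (g i).opensRange ⊓ (g j).opensRange ≤ (g2 i j).opensRange)
    (i j : κ) : ((g i).opensRange ⊓ (g j).opensRange).toScheme ⟶ Y2 i j :=
  IsOpenImmersion.lift (g2 i j) ((g i).opensRange ⊓ (g j).opensRange).ι (by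
    rw [Scheme.Opens.range_ι]
    exact hrange i j)

@[reassoc (attr := simp)]
theorem overlapLift_fac (i j : κ) :
    overlapLift g g2 hrange i j ≫ g2 i j = ((g i).opensRange ⊓ (g j).opensRange).ι :=
  IsOpenImmersion.lift_fac _ _ _

include h₁ in
theorem overlapLift_fst (i j : κ) :
    overlapLift g g2 hrange i j ≫ π₁ i j =
      X.homOfLE (inf_le_left : (g i).opensRange ⊓ (g j).opensRange ≤ _) ≫ rangeLift (g i) := by
  rw [← cancel_mono (g i), Category.assoc, Category.assoc, h₁, overlapLift_fac, rangeLift_fac,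
    Scheme.homOfLE_ι]

include h₂ in
theorem overlapLift_snd (i j : κ) :
    overlapLift g g2 hrange i j ≫ π₂ i j =
      X.homOfLE (inf_le_right : (g i).opensRange ⊓ (g j).opensRange ≤ _) ≫ rangeLift (g j) := by
  rw [← cancel_mono (g j), Category.assoc, Category.assoc, h₂, overlapLift_fac, rangeLift_fac,
    Scheme.homOfLE_ι]

include hcover h₁ h₂ hrange in
/-- **Gluing of morphisms over a cover by open immersions.** -/
theorem existsUnique_hom_of_openCover
    (a : ∀ i, (pullback (g i)).obj M ⟶ (pullback (g i)).obj N)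
    (ha : ∀ i j, homAlong (π₁ i j) (h₁ i j) (a i) = homAlong (π₂ i j) (h₂ i j) (a j)) :
    ∃! a₀ : M ⟶ N, ∀ i, (pullback (g i)).map a₀ = a i := by
  have key : ∀ (a₀ : M ⟶ N) (i : κ),
      (pullback ((g i).opensRange).ι).map a₀ = homAlong (rangeLift (g i)) (rangeLift_fac (g i)) (a i) ↔
        (pullback (g i)).map a₀ = a i := by
    intro a₀ i
    rw [← homAlong_map (rangeLift (g i)) (rangeLift_fac (g i)) a₀]
    exact (homAlong_injective_of_isIso (rangeLift (g i)) (rangeLift_fac (g i))).eq_iff
  obtain ⟨a₀, ha₀, huniq⟩ := ModGlue88.existsUnique_hom_of_cover_pullback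
    (fun i => (g i).opensRange) hcover
    (fun i => homAlong (rangeLift (g i)) (rangeLift_fac (g i)) (a i)) (fun i j => by
      rw [pullbackResHom_eq_homAlong, pullbackResHom_eq_homAlong, homAlong_homAlong,
        homAlong_homAlong]
      rw [homAlong_congr (overlapLift_fst g π₁ g2 h₁ hrange i j).symm _
        (by rw [Category.assoc, h₁, overlapLift_fac]),
        homAlong_congr (overlapLift_snd g π₂ g2 h₂ hrange i j).symm _
        (by rw [Category.assoc, h₂, overlapLift_fac])]
      rw [← homAlong_homAlong (overlapLift g g2 hrange i j) (π₁ i j) (h₁ i j)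
          (overlapLift_fac g g2 hrange i j),
        ← homAlong_homAlong (overlapLift g g2 hrange i j) (π₂ i j) (h₂ i j)
          (overlapLift_fac g g2 hrange i j), ha i j])
  refine ⟨a₀, fun i => (key a₀ i).mp (ha₀ i), fun b hb => huniq b (fun i => (key b i).mpr (hb i))⟩

include hcover in
/-- A morphism of modules whose pullbacks to the members of a cover by open immersions are
isomorphisms is an isomorphism. -/
theorem isIso_of_openCover (a₀ : M ⟶ N) (h : ∀ i, IsIso ((pullback (g i)).map a₀)) :
    IsIso a₀ := by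
  refine ModGlue88.isIso_of_cover_pullback (fun i => (g i).opensRange) hcover a₀ (fun i => ?_)
  rw [← homAlong_map (rangeLift (g i)) (rangeLift_fac (g i)) a₀]
  have := h i
  exact isIso_homAlong _ _ _

include hcover in
/-- Two morphisms of modules with the same pullbacks to the members of a cover by open
immersions are equal. -/
theorem hom_ext_of_openCover (a₀ b₀ : M ⟶ N)
    (h : ∀ i, (pullback (g i)).map a₀ = (pullback (g i)).map b₀) : a₀ = b₀ := by
  refine ModGlue88.hom_ext_of_cover_pullback (fun i => (g i).opensRange) hcover a₀ b₀ (fun i => ?_)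
  rw [← homAlong_map (rangeLift (g i)) (rangeLift_fac (g i)) a₀,
    ← homAlong_map (rangeLift (g i)) (rangeLift_fac (g i)) b₀, h i]

end Cover

end

end Fermat.Agent.Jac.Functor32
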