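/-
Programme JAC (S25), brick R1 (helper32): multiplication by a global function as an endomorphism
of a module, and linearity of the pullback functor with respect to it.
-/
import Mathlib
import Fermat.Agent.Jac.ModGlue88.LocTriv

set_option autoImplicit false

universe u

open CategoryTheory AlgebraicGeometry

namespace Fermat.Agent.Jac.Functor32

open Scheme.Modules ModGlue88

noncomputable section

variable {X Y : Scheme.{u}}

/-- Multiplication by a global function, as an endomorphism of a module. -/
def gScalar (M : X.Modules) (r : Γ(X, ⊤)) : M ⟶ M := (LocalHom.scalar M ⊤ r).toHom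

theorem gScalar_app (M : X.Modules) (r : Γ(X, ⊤)) (W : X.Opens) (x : Γ(M, W)) :
    (gScalar M r).app W x = resO X (le_top : W ≤ ⊤) r • x := rfl

theorem gScalar_naturality {M N : X.Modules} (φ : M ⟶ N) (r : Γ(X, ⊤)) :
    gScalar M r ≫ φ = φ ≫ gScalar N r := by
  apply Scheme.Modules.hom_ext
  intro W
  ext x
  change φ.app W ((gScalar M r).app W x) = (gScalar N r).app W (φ.app W x)
  rw [gScalar_app, gScalar_app, Scheme.Modules.Hom.app_smul]

theorem pushforward_smul (f : Y ⟶ X) (N : Y.Modules) (W : X.Opens) (s : Γ(X, W))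
    (x : Γ(N, f ⁻¹ᵁ W)) :
    (s • (show Γ((pushforward f).obj N, W) from x) : Γ((pushforward f).obj N, W)) =
      (show Γ((pushforward f).obj N, W) from ((f.app W s) • x : Γ(N, f ⁻¹ᵁ W))) := rfl

theorem app_resO (f : Y ⟶ X) {W' W : X.Opens} (h : W' ≤ W) (r : Γ(X, W)) :
    f.app W' (resO X h r) = resO Y (f.preimage_mono h) (f.app W r) := by
  have := f.naturality (homOfLE h).op
  exact congr($this r)

theorem pushforward_map_gScalar (f : Y ⟶ X) (N : Y.Modules) (r : Γ(X, ⊤)) :
    (pushforward f).map (gScalar N (f.appTop r)) = gScalar ((pushforward f).obj N) r := by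
  apply Scheme.Modules.hom_ext
  intro W
  ext x
  have h1 : ((pushforward f).map (gScalar N (f.appTop r))).app W x =
      (show Γ((pushforward f).obj N, W) from
        (resO Y (le_top : f ⁻¹ᵁ W ≤ ⊤) (f.appTop r) • (show Γ(N, f ⁻¹ᵁ W) from x))) := rfl
  rw [h1, gScalar_app]
  rw [pushforward_smul f N W _ x, app_resO]
  rfl

/-- **The pullback functor is linear**: it sends multiplication by `r` to multiplication by the
pullback of `r`. -/
theorem pullback_map_gScalar (f : Y ⟶ X) (M : X.Modules) (r : Γ(X, ⊤)) :
    (pullback f).map (gScalar M r) = gScalar ((pullback f).obj M) (f.appTop r) := by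
  apply ((pullbackPushforwardAdjunction f).homEquiv _ _).injective
  rw [Adjunction.homEquiv_unit, Adjunction.homEquiv_unit, pushforward_map_gScalar]
  have h1 := gScalar_naturality ((pullbackPushforwardAdjunction f).unit.app M) r
  have h2 := (pullbackPushforwardAdjunction f).unit.naturality (gScalar M r)
  exact h2.symm.trans h1

theorem gScalar_one (M : X.Modules) : gScalar M 1 = 𝟙 M := by
  apply Scheme.Modules.hom_ext
  intro W
  ext x
  rw [gScalar_app, map_one, one_smul]
  rfl

theorem gScalar_mul (M : X.Modules) (r s : Γ(X, ⊤)) :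
    gScalar M (r * s) = gScalar M r ≫ gScalar M s := by
  apply Scheme.Modules.hom_ext
  intro W
  ext x
  change (gScalar M (r * s)).app W x = (gScalar M s).app W ((gScalar M r).app W x)
  rw [gScalar_app, gScalar_app, gScalar_app, map_mul, smul_smul, mul_comm]

/-- Multiplication by a unit is an automorphism. -/
def gScalarIso (M : X.Modules) (r : (Γ(X, ⊤))ˣ) : M ≅ M where
  hom := gScalar M r
  inv := gScalar M (r⁻¹ : (Γ(X, ⊤))ˣ)
  hom_inv_id := by rw [← gScalar_mul, Units.mul_inv, gScalar_one]
  inv_hom_id := by rw [← gScalar_mul, Units.inv_mul, gScalar_one]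

theorem ofHom_gScalar (M : X.Modules) (r : Γ(X, ⊤)) (U : X.Opens) :
    LocalHom.ofHom (gScalar M r) U = LocalHom.scalar M U (resO X (le_top : U ≤ ⊤) r) := by
  ext W hW x
  rw [LocalHom.ofHom_app, gScalar_app, LocalHom.scalar_app, resO_resO]

end

end Fermat.Agent.Jac.Functor32
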