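/-
Programme JAC (S25), brick R1 (helper32): pullback along a section is fully faithful on
isomorphisms of invertible modules, provided functions are determined by their pullback.
-/
import Mathlib
import Fermat.Agent.Jac.Functor32.Linear
import Fermat.Agent.Jac.Functor32.HomAlong
import Fermat.Agent.Jac.ModGlue88.Invertible

set_option autoImplicit false

universe u

open CategoryTheory AlgebraicGeometry

namespace Fermat.Agent.Jac.Functor32

open Scheme.Modules ModGlue88

noncomputable section

variable {X Y Z : Scheme.{u}}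

/-- Two isomorphisms out of an invertible module differ by a unit global function. -/
theorem exists_unit_gScalar {N N' : Z.Modules} (hN : Scheme.Modules.IsInvertible N)
    (a a' : N ≅ N') : ∃ r : (Γ(Z, ⊤))ˣ, a'.hom = gScalar N r ≫ a.hom := by
  rw [isInvertible_iff_isLocallyTrivial] at hN
  obtain ⟨r, hr, -⟩ := LocalIso.existsUnique_unit hN (LocalIso.ofIso a ⊤) (LocalIso.ofIso a' ⊤)
  refine ⟨r, ?_⟩
  have h2 : LocalHom.ofHom a'.hom ⊤ = LocalHom.ofHom (gScalar N r ≫ a.hom) ⊤ := by
    rw [LocalHom.ofHom_comp, ofHom_gScalar, resO_self]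
    exact hr
  have := congrArg LocalHom.toHom h2
  rwa [LocalHom.toHom_ofHom, LocalHom.toHom_ofHom] at this

/-- On an invertible module, multiplication by a global function determines the function. -/
theorem gScalar_injective {N : Z.Modules} (hN : Scheme.Modules.IsInvertible N) :
    Function.Injective (gScalar N) := by
  rw [isInvertible_iff_isLocallyTrivial] at hN
  intro r s h
  apply LocalHom.scalar_injective hN
  have := congrArg (fun φ => LocalHom.ofHom φ (⊤ : Z.Opens)) h
  simpa only [ofHom_gScalar, resO_self] using this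

/-- **Faithfulness** of pullback along `f` on isomorphisms of invertible modules, when functions
on the target are determined by their pullback along `f`. -/
theorem iso_hom_eq_of_pullback_map_eq {f : Y ⟶ Z}
    (hinj : Function.Injective (f.appTop : Γ(Z, ⊤) → Γ(Y, ⊤)))
    {N N' : Z.Modules} (hN : Scheme.Modules.IsInvertible N) (a a' : N ≅ N')
    (h : (pullback f).map a.hom = (pullback f).map a'.hom) : a.hom = a'.hom := by
  obtain ⟨r, hr⟩ := exists_unit_gScalar hN a a'
  have h1 : (pullback f).map a'.hom =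
      gScalar ((pullback f).obj N) (f.appTop r) ≫ (pullback f).map a.hom := by
    rw [hr, Functor.map_comp, pullback_map_gScalar]
  rw [← h] at h1
  have h2 : gScalar ((pullback f).obj N) (f.appTop r) = 𝟙 _ := by
    have := (cancel_mono ((pullback f).map a.hom)).mp ((Category.id_comp _).trans h1)
    exact this.symm
  rw [← gScalar_one] at h2
  have h3 : f.appTop (r : Γ(Z, ⊤)) = 1 := gScalar_injective (hN.pullback f) h2
  have h4 : (r : Γ(Z, ⊤)) = 1 := hinj (h3.trans (map_one _).symm)
  rw [hr, h4, gScalar_one, Category.id_comp]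

/-- **Fullness** of pullback along a section `f` of `q` on isomorphisms of invertible modules. -/
theorem exists_iso_pullback_map_eq {f : Y ⟶ Z} {q : Z ⟶ Y} (hq : f ≫ q = 𝟙 Y)
    {N N' : Z.Modules} (hN : Scheme.Modules.IsInvertible N) (a : N ≅ N')
    (θ : (pullback f).obj N ≅ (pullback f).obj N') :
    ∃ a' : N ≅ N', (pullback f).map a'.hom = θ.hom := by
  obtain ⟨u, hu⟩ := exists_unit_gScalar (hN.pullback f) ((pullback f).mapIso a) θ
  let v : (Γ(Z, ⊤))ˣ := Units.map (q.appTop.hom : Γ(Y, ⊤) →* Γ(Z, ⊤)) u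
  refine ⟨gScalarIso N v ≪≫ a, ?_⟩
  have hv : f.appTop (v : Γ(Z, ⊤)) = u := by
    change f.appTop (q.appTop (u : Γ(Y, ⊤))) = u
    have : q.appTop ≫ f.appTop = 𝟙 _ := by
      rw [← Scheme.Hom.comp_appTop, hq]
      rfl
    exact congr($this (u : Γ(Y, ⊤)))
  rw [Iso.trans_hom, Functor.map_comp]
  change (pullback f).map (gScalar N v) ≫ _ = _
  rw [pullback_map_gScalar, hv, hu]
  rfl

section Along

variable {f : Y ⟶ Z} {v : Z ⟶ X} {w : Y ⟶ X} (hw : f ≫ v = w) {L L' : X.Modules}

theorem homAlong_eq_iff (a a' : (pullback v).obj L ⟶ (pullback v).obj L') :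
    homAlong f hw a = homAlong f hw a' ↔ (pullback f).map a = (pullback f).map a' := by
  unfold homAlong
  rw [cancel_epi, cancel_mono]

/-- Faithfulness, in `homAlong` form (only the pullback is assumed invertible). -/
theorem iso_hom_eq_of_homAlong_eq' (hinj : Function.Injective (f.appTop : Γ(Z, ⊤) → Γ(Y, ⊤)))
    (hL : Scheme.Modules.IsInvertible ((pullback v).obj L))
    (a a' : (pullback v).obj L ≅ (pullback v).obj L')
    (h : homAlong f hw a.hom = homAlong f hw a'.hom) : a.hom = a'.hom :=
  iso_hom_eq_of_pullback_map_eq hinj hL a a' ((homAlong_eq_iff hw _ _).mp h)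

/-- Fullness, in `homAlong` form (only the pullback is assumed invertible). -/
theorem exists_iso_homAlong_eq' {q : Z ⟶ Y} (hq : f ≫ q = 𝟙 Y)
    (hL : Scheme.Modules.IsInvertible ((pullback v).obj L))
    (a : (pullback v).obj L ≅ (pullback v).obj L')
    (θ : (pullback w).obj L ≅ (pullback w).obj L') :
    ∃ a' : (pullback v).obj L ≅ (pullback v).obj L', homAlong f hw a'.hom = θ.hom := by
  obtain ⟨a', ha'⟩ := exists_iso_pullback_map_eq hq hL a
    (compIso f hw L ≪≫ θ ≪≫ (compIso f hw L').symm)
  refine ⟨a', ?_⟩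
  unfold homAlong
  rw [ha']
  simp

/-- Faithfulness, in `homAlong` form. -/
theorem iso_hom_eq_of_homAlong_eq (hinj : Function.Injective (f.appTop : Γ(Z, ⊤) → Γ(Y, ⊤)))
    (hL : Scheme.Modules.IsInvertible L) (a a' : (pullback v).obj L ≅ (pullback v).obj L')
    (h : homAlong f hw a.hom = homAlong f hw a'.hom) : a.hom = a'.hom :=
  iso_hom_eq_of_pullback_map_eq hinj (hL.pullback v) a a' ((homAlong_eq_iff hw _ _).mp h)

/-- Fullness, in `homAlong` form. -/
theorem exists_iso_homAlong_eq {q : Z ⟶ Y} (hq : f ≫ q = 𝟙 Y)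
    (hL : Scheme.Modules.IsInvertible L) (a : (pullback v).obj L ≅ (pullback v).obj L')
    (θ : (pullback w).obj L ≅ (pullback w).obj L') :
    ∃ a' : (pullback v).obj L ≅ (pullback v).obj L', homAlong f hw a'.hom = θ.hom := by
  obtain ⟨a', ha'⟩ := exists_iso_pullback_map_eq hq (hL.pullback v) a
    (compIso f hw L ≪≫ θ ≪≫ (compIso f hw L').symm)
  refine ⟨a', ?_⟩
  unfold homAlong
  rw [ha']
  simp

end Along

end

end Fermat.Agent.Jac.Functor32
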