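/-
Programme JAC (S25), brick R1 (helper32): the separation axiom of `ClassesIsSheaf`:
rigidified line bundles which are isomorphic locally on the base are isomorphic.
-/
import Mathlib
import Fermat.Agent.Jac.Functor32.BaseOpen
import Fermat.Agent.Jac.Functor32.GFF
import Fermat.Agent.Jac.Functor32.CoverGlue

set_option autoImplicit false

universe u

open CategoryTheory AlgebraicGeometry AlgebraicGeometry.RelPicard NeronModelInfra

namespace Fermat.Agent.Jac.Functor32

open Scheme.Modules

noncomputable section

variable {k : Type u} [Field k] {C : Scheme.{u}} {c : C ⟶ Spec (CommRingCat.of k)}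
  {ε : SchemeHomOver (𝟙 (Spec (CommRingCat.of k))) c}

variable {T : Scheme.{u}} (t : T ⟶ Spec (CommRingCat.of k))

/-- A local isomorphism over `C × U` is *normalised* with respect to `θ : σ^* L ≅ σ^* L'` if its
pullback along the rigidifying section of `C × U` is the restriction of `θ`. -/
def IsNormalised {L L' : (Limits.pullback c t).Modules}
    (θ : (pullback (rigSection c t ε)).obj L ⟶ (pullback (rigSection c t ε)).obj L')
    (U : T.Opens)
    (a : (pullback (baseChangeSnd c (openIncl t U))).obj L ⟶
      (pullback (baseChangeSnd c (openIncl t U))).obj L') : Prop :=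
  homAlong (rigSection c (U.ι ≫ t) ε) (rigSection_openIncl t U) a =
    homAlong U.ι (rfl : U.ι ≫ rigSection c t ε = U.ι ≫ rigSection c t ε) θ

variable {t}

/-- The restriction of a normalised local isomorphism to a smaller open is normalised. -/
theorem IsNormalised.restrict {L L' : (Limits.pullback c t).Modules}
    {θ : (pullback (rigSection c t ε)).obj L ⟶ (pullback (rigSection c t ε)).obj L'}
    {V U : T.Opens} (h : V ≤ U)
    {a : (pullback (baseChangeSnd c (openIncl t U))).obj L ⟶
      (pullback (baseChangeSnd c (openIncl t U))).obj L'} (ha : IsNormalised t θ U a) :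
    IsNormalised t θ V
      (homAlong (baseChangeSnd c (openInclLE t h)) (baseChangeSnd_openInclLE_comp t h) a) := by
  unfold IsNormalised at ha ⊢
  rw [homAlong_homAlong]
  rw [homAlong_congr (rigSection_openInclLE (ε := ε) t h) _
    (by rw [Category.assoc, rigSection_openIncl, Scheme.homOfLE_ι_assoc])]
  rw [← homAlong_homAlong (T.homOfLE h) (rigSection c (U.ι ≫ t) ε) (rigSection_openIncl t U)
    (by rw [Scheme.homOfLE_ι_assoc]), ha, homAlong_homAlong]
  exact homAlong_congr (T.homOfLE_ι h) _ _ θ

/-- **Separation**: two invertible modules on `C × T` with isomorphic pullbacks along the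
rigidifying section, which are isomorphic locally on `T`, are isomorphic, by an isomorphism
inducing the given one along the section. -/
theorem exists_iso_of_local_iso (hΓ : HGamma c ε) {L L' : (Limits.pullback c t).Modules}
    (hL : Scheme.Modules.IsInvertible L)
    (θ : (pullback (rigSection c t ε)).obj L ≅ (pullback (rigSection c t ε)).obj L')
    {ι : Type*} (U : ι → T.Opens) (hU : ⨆ i, U i = ⊤)
    (hloc : ∀ i, Nonempty ((pullback (baseChangeSnd c (openIncl t (U i)))).obj L ≅
      (pullback (baseChangeSnd c (openIncl t (U i)))).obj L')) :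
    ∃ f : L ≅ L', ∀ i, IsNormalised t θ.hom (U i)
      ((pullback (baseChangeSnd c (openIncl t (U i)))).map f.hom) := by
  -- normalised local isomorphisms
  have hnorm : ∀ i, ∃ a : (pullback (baseChangeSnd c (openIncl t (U i)))).obj L ≅
      (pullback (baseChangeSnd c (openIncl t (U i)))).obj L', IsNormalised t θ.hom (U i) a.hom := by
    intro i
    obtain ⟨a⟩ := hloc i
    exact exists_iso_homAlong_eq (rigSection_openIncl t (U i))
      (rigSection_snd (ε := ε) ((U i).ι ≫ t)) hL a
      (isoAlong (U i).ι (rfl : (U i).ι ≫ rigSection c t ε = (U i).ι ≫ rigSection c t ε) θ)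
  choose a ha using hnorm
  -- they agree on the overlaps
  have hcompat : ∀ i j,
      homAlong (baseChangeSnd c (openInclLE t (inf_le_left : U i ⊓ U j ≤ U i)))
          (baseChangeSnd_openInclLE_comp t _) (a i).hom =
        homAlong (baseChangeSnd c (openInclLE t (inf_le_right : U i ⊓ U j ≤ U j)))
          (baseChangeSnd_openInclLE_comp t _) (a j).hom := by
    intro i j
    have h1 := (ha i).restrict (inf_le_left : U i ⊓ U j ≤ U i)
    have h2 := (ha j).restrict (inf_le_right : U i ⊓ U j ≤ U j)
    exact iso_hom_eq_of_homAlong_eq (rigSection_openIncl t (U i ⊓ U j))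
      (hΓ ((U i ⊓ U j).ι ≫ t)) hL
      (isoAlong _ (baseChangeSnd_openInclLE_comp t _) (a i))
      (isoAlong _ (baseChangeSnd_openInclLE_comp t _) (a j)) (h1.trans h2.symm)
  -- glue
  obtain ⟨f, hf, -⟩ := existsUnique_hom_of_openCover
    (fun i => baseChangeSnd c (openIncl t (U i))) (iSup_opensRange_baseChangeSnd t U hU)
    (fun i j => baseChangeSnd c (openInclLE t (inf_le_left : U i ⊓ U j ≤ U i)))
    (fun i j => baseChangeSnd c (openInclLE t (inf_le_right : U i ⊓ U j ≤ U j)))
    (fun i j => baseChangeSnd c (openIncl t (U i ⊓ U j)))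
    (fun i j => baseChangeSnd_openInclLE_comp t _) (fun i j => baseChangeSnd_openInclLE_comp t _)
    (fun i j => by
      rw [opensRange_baseChangeSnd_openIncl, opensRange_baseChangeSnd_openIncl,
        opensRange_baseChangeSnd_openIncl]
      exact le_rfl)
    (fun i => (a i).hom) hcompat
  have hiso : IsIso f := isIso_of_openCover (fun i => baseChangeSnd c (openIncl t (U i)))
    (iSup_opensRange_baseChangeSnd t U hU) f (fun i => by rw [hf i]; infer_instance)
  refine ⟨asIso f, fun i => ?_⟩
  rw [asIso_hom, hf i]
  exact ha i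

/-- The field `sep` of `ClassesIsSheaf`, from hypothesis (HΓ). -/
theorem classes_sep (hΓ : HGamma c ε) (M M' : RigidifiedLineBundle c ε t) {ι : Type u}
    (U : ι → T.Opens) (hU : ⨆ i, U i = ⊤)
    (h : ∀ i, Nonempty ((restrictOpen M (U i)).L ≅ (restrictOpen M' (U i)).L)) :
    Nonempty (M.L ≅ M'.L) := by
  obtain ⟨f, -⟩ := exists_iso_of_local_iso hΓ M.isInvertible
    (M.rigidified.some ≪≫ M'.rigidified.some.symm) U hU h
  exact ⟨f⟩

end

end Fermat.Agent.Jac.Functor32
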