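/-
Programme JAC (S25), brick R1 (helper32): isomorphism classes of invertible modules on a scheme
form a small type (trivialising cover + transition cocycle); hence the field `small` of
`ClassesIsSheaf`.
-/
import Mathlib
import Fermat.Agent.Jac.RepInterface
import Fermat.Agent.Jac.ModGlue88.Invertible

set_option autoImplicit false

universe u

open CategoryTheory AlgebraicGeometry AlgebraicGeometry.RelPicard NeronModelInfra

namespace Fermat.Agent.Jac.Functor32

open ModGlue88

noncomputable section

section Cocycle

variable {X : Scheme.{u}}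

/-- A trivialisation of a module on a cover indexed by the points of the scheme. -/
structure TrivData (M : X.Modules) where
  /-- the trivialising neighbourhood of a point -/
  W : X → X.Opens
  mem : ∀ x, x ∈ W x
  /-- the trivialisations -/
  e : ∀ x, LocalIso M (unitMod X) (W x)

/-- The type of transition cocycles of the structure sheaf. -/
abbrev CocycleData (X : Scheme.{u}) : Type u :=
  Σ W : X → X.Opens, ∀ x y, LocalHom (unitMod X) (unitMod X) (W x ⊓ W y)

/-- The transition cocycle of a trivialisation. -/
def TrivData.cocycle {M : X.Modules} (d : TrivData M) : CocycleData X :=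
  ⟨d.W, fun x y => ((d.e x).inv.restrict inf_le_left).comp ((d.e y).hom.restrict inf_le_right)⟩

theorem TrivData.nonempty {M : X.Modules} (hM : Scheme.Modules.IsInvertible M) :
    Nonempty (TrivData M) := by
  rw [isInvertible_iff_isLocallyTrivial] at hM
  choose W _ hxW hα using fun x : X => hM x trivial
  exact ⟨⟨W, hxW, fun x => (hα x).some⟩⟩

/-- Two modules with trivialisations having the same transition cocycle are isomorphic. -/
theorem TrivData.nonempty_iso_of_cocycle_eq {M M' : X.Modules} (d : TrivData M)
    (d' : TrivData M') (h : d.cocycle = d'.cocycle) : Nonempty (M ≅ M') := by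
  obtain ⟨W, mem, e⟩ := d
  obtain ⟨W', mem', e'⟩ := d'
  simp only [TrivData.cocycle] at h
  obtain ⟨rfl, h2⟩ := Sigma.mk.inj_iff.mp h
  have h3 := eq_of_heq h2
  have hcover : iSup W = ⊤ := by
    rw [eq_top_iff]
    intro x _
    exact TopologicalSpace.Opens.mem_iSup.mpr ⟨x, mem x⟩
  obtain ⟨f, -⟩ := LocalIso.exists_iso_of_cover W hcover (fun x => (e x).trans (e' x).symm)
    (fun x y => by
      have hxy := congrFun (congrFun h3 x) y
      simp only [LocalIso.trans_hom, LocalIso.symm_hom, LocalHom.restrict_comp]
      have h4 : (e y).hom.restrict (inf_le_right : W x ⊓ W y ≤ W y) =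
          ((e x).hom.restrict inf_le_left).comp
            (((e' x).inv.restrict inf_le_left).comp ((e' y).hom.restrict inf_le_right)) := by
        rw [← hxy, ← LocalHom.comp_assoc, ← LocalHom.restrict_comp, (e x).hom_inv_id,
          LocalHom.restrict_id, LocalHom.id_comp]
      rw [h4, LocalHom.comp_assoc, LocalHom.comp_assoc, ← LocalHom.restrict_comp (e' y).hom,
        (e' y).hom_inv_id, LocalHom.restrict_id, LocalHom.comp_id])
  exact ⟨f⟩

end Cocycle

variable {k : Type u} [Field k] {C : Scheme.{u}} {c : C ⟶ Spec (CommRingCat.of k)}
  {ε : SchemeHomOver (𝟙 (Spec (CommRingCat.of k))) c}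

/-- The field `small` of `ClassesIsSheaf`. -/
theorem classes_small {T : Scheme.{u}} (t : T ⟶ Spec (CommRingCat.of k)) :
    Small.{u} (RigidifiedLineBundle.Classes c ε t) := by
  classical
  let G : RigidifiedLineBundle c ε t → CocycleData (Limits.pullback c t) :=
    fun M => (TrivData.nonempty M.isInvertible).some.cocycle
  have hG : ∀ M M' : RigidifiedLineBundle c ε t, G M = G M' → Nonempty (M.L ≅ M'.L) :=
    fun M M' h => TrivData.nonempty_iso_of_cocycle_eq _ _ h
  let F : Set.range G → RigidifiedLineBundle.Classes c ε t :=
    fun d => Quotient.mk _ d.2.choose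
  have hF : Function.Surjective F := by
    intro ξ
    induction ξ using Quotient.ind with
    | _ M =>
      refine ⟨⟨G M, M, rfl⟩, ?_⟩
      apply Quotient.sound
      exact hG _ _ (Exists.choose_spec (⟨M, rfl⟩ : ∃ M', G M' = G M))
  exact small_of_surjective hF

end

end Fermat.Agent.Jac.Functor32
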