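/-
Programme JAC (S25), brick R1 (helper32): gluing, over an open cover of `T`, of morphisms between
the pullbacks of two modules along `σ : T ⟶ X` given locally in `homAlong` form.
-/
import Mathlib
import Fermat.Agent.Jac.Functor32.CoverGlue

set_option autoImplicit false

universe u

open CategoryTheory AlgebraicGeometry

namespace Fermat.Agent.Jac.Functor32

open Scheme.Modules

noncomputable section

variable {X T T' Z : Scheme.{u}} (σ : T ⟶ X) {M N : X.Modules}

/-- A morphism between pullbacks along `v ≫ σ`, as a morphism between the pullbacks along `v` of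
the pullbacks along `σ`. -/
def unAlong (v : T' ⟶ T)
    (r : (pullback (v ≫ σ)).obj M ⟶ (pullback (v ≫ σ)).obj N) :
    (pullback v).obj ((pullback σ).obj M) ⟶ (pullback v).obj ((pullback σ).obj N) :=
  (compIso v (rfl : v ≫ σ = v ≫ σ) M).hom ≫ r ≫ (compIso v (rfl : v ≫ σ = v ≫ σ) N).inv

theorem unAlong_injective (v : T' ⟶ T) :
    Function.Injective (unAlong σ v : ((pullback (v ≫ σ)).obj M ⟶ (pullback (v ≫ σ)).obj N) → _) := by
  intro r r' h
  unfold unAlong at h
  rwa [cancel_epi, cancel_mono] at h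

theorem unAlong_homAlong (v : T' ⟶ T) (a : (pullback σ).obj M ⟶ (pullback σ).obj N) :
    unAlong σ v (homAlong v (rfl : v ≫ σ = v ≫ σ) a) = (pullback v).map a := by
  simp [unAlong, homAlong]

/-- Coherence: `unAlong` commutes with transport. -/
theorem homAlong_unAlong (q : Z ⟶ T') {v : T' ⟶ T} {w : Z ⟶ T} (h : q ≫ v = w)
    (r : (pullback (v ≫ σ)).obj M ⟶ (pullback (v ≫ σ)).obj N) :
    homAlong q h (unAlong σ v r) =
      unAlong σ w (homAlong q (show q ≫ v ≫ σ = w ≫ σ by rw [← h, Category.assoc]) r) := by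
  subst h
  have key : ∀ K : X.Modules,
      (pullback q).map (compIso v (rfl : v ≫ σ = v ≫ σ) K).hom ≫
        (compIso q (show q ≫ v ≫ σ = (q ≫ v) ≫ σ by rw [Category.assoc]) K).hom =
      (compIso q (rfl : q ≫ v = q ≫ v) ((pullback σ).obj K)).hom ≫
        (compIso (q ≫ v) (rfl : (q ≫ v) ≫ σ = (q ≫ v) ≫ σ) K).hom := by
    intro K
    have := compIso_comp q v (rfl : v ≫ σ = v ≫ σ)
      (show q ≫ v ≫ σ = (q ≫ v) ≫ σ by rw [Category.assoc]) K
    rw [this, compIso_rfl q v]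
    simp
  have e1 : ∀ K : X.Modules, (pullback q).map (compIso v (rfl : v ≫ σ = v ≫ σ) K).hom =
      ((compIso q (rfl : q ≫ v = q ≫ v) ((pullback σ).obj K)).hom ≫
        (compIso (q ≫ v) (rfl : (q ≫ v) ≫ σ = (q ≫ v) ≫ σ) K).hom) ≫
        (compIso q (show q ≫ v ≫ σ = (q ≫ v) ≫ σ by rw [Category.assoc]) K).inv :=
    fun K => (Iso.eq_comp_inv _).mpr (key K)
  have e2 : ∀ K : X.Modules, (pullback q).map (compIso v (rfl : v ≫ σ = v ≫ σ) K).inv =
      (compIso q (show q ≫ v ≫ σ = (q ≫ v) ≫ σ by rw [Category.assoc]) K).hom ≫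
        (compIso (q ≫ v) (rfl : (q ≫ v) ≫ σ = (q ≫ v) ≫ σ) K).inv ≫
          (compIso q (rfl : q ≫ v = q ≫ v) ((pullback σ).obj K)).inv := by
    intro K
    rw [← cancel_epi ((pullback q).map (compIso v (rfl : v ≫ σ = v ≫ σ) K).hom),
      ← Functor.map_comp, Iso.hom_inv_id, CategoryTheory.Functor.map_id, e1 K]
    simp
  unfold homAlong unAlong
  simp only [Functor.map_comp, Category.assoc]
  rw [e1 M, e2 N]
  simp

section Cover

variable {κ : Type*} (U : κ → T.Opens) (hU : ⨆ i, U i = ⊤)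

theorem homOfLE_ι_comp {V W : T.Opens} (h : V ≤ W) :
    T.homOfLE h ≫ W.ι ≫ σ = V.ι ≫ σ := by
  rw [← Category.assoc, Scheme.homOfLE_ι]

include hU in
/-- **Gluing along a section**: morphisms `σ^* M ⟶ σ^* N` can be constructed locally on `T`. -/
theorem existsUnique_hom_along
    (r : ∀ i, (pullback ((U i).ι ≫ σ)).obj M ⟶ (pullback ((U i).ι ≫ σ)).obj N)
    (hr : ∀ i j, homAlong (T.homOfLE (inf_le_left : U i ⊓ U j ≤ U i)) (homOfLE_ι_comp σ _) (r i) =
      homAlong (T.homOfLE (inf_le_right : U i ⊓ U j ≤ U j)) (homOfLE_ι_comp σ _) (r j)) :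
    ∃! r₀ : (pullback σ).obj M ⟶ (pullback σ).obj N,
      ∀ i, homAlong (U i).ι (rfl : (U i).ι ≫ σ = (U i).ι ≫ σ) r₀ = r i := by
  obtain ⟨r₀, hr₀, huniq⟩ := ModGlue88.existsUnique_hom_of_cover_pullback U hU
    (fun i => unAlong σ (U i).ι (r i)) (fun i j => by
      rw [pullbackResHom_eq_homAlong, pullbackResHom_eq_homAlong, homAlong_unAlong,
        homAlong_unAlong, hr i j])
  refine ⟨r₀, fun i => ?_, fun r₁ hr₁ => huniq r₁ (fun i => ?_)⟩
  · apply unAlong_injective σ (U i).ι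
    rw [unAlong_homAlong, hr₀ i]
  · rw [← hr₁ i, unAlong_homAlong]

include hU in
theorem isIso_of_isIso_along (r₀ : (pullback σ).obj M ⟶ (pullback σ).obj N)
    (h : ∀ i, IsIso (homAlong (U i).ι (rfl : (U i).ι ≫ σ = (U i).ι ≫ σ) r₀)) : IsIso r₀ := by
  refine ModGlue88.isIso_of_cover_pullback U hU r₀ (fun i => ?_)
  rw [← unAlong_homAlong]
  have := h i
  unfold unAlong
  infer_instance

end Cover

end

end Fermat.Agent.Jac.Functor32
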