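/-
Programme JAC (S25), brick R1 (helper32): calculus of morphisms between modules on `C × T`
"over an open `W` of the base" (`BHom`), of morphisms between their pullbacks along the
rigidifying section "over `W`" (`SHom`), restriction maps, and pullback along the section (`sig`).
-/
import Mathlib
import Fermat.Agent.Jac.Functor32.BaseOpen
import Fermat.Agent.Jac.Functor32.SigmaGlue

set_option autoImplicit false

universe u

open CategoryTheory AlgebraicGeometry AlgebraicGeometry.RelPicard NeronModelInfra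

namespace Fermat.Agent.Jac.Functor32

open Scheme.Modules

noncomputable section

variable {k : Type u} [Field k] {C : Scheme.{u}} {c : C ⟶ Spec (CommRingCat.of k)}
  {ε : SchemeHomOver (𝟙 (Spec (CommRingCat.of k))) c}
  {T : Scheme.{u}} {t : T ⟶ Spec (CommRingCat.of k)}

/-- The open immersion `C × W ⟶ C × T`. -/
abbrev bW {C : Scheme.{u}} (c : C ⟶ Spec (CommRingCat.of k)) {T : Scheme.{u}}
    (t : T ⟶ Spec (CommRingCat.of k)) (W : T.Opens) :
    Limits.pullback c (W.ι ≫ t) ⟶ Limits.pullback c t :=
  baseChangeSnd c (openIncl t W)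

/-- The open immersion `C × W' ⟶ C × W` for `W' ≤ W`. -/
abbrev bLE {C : Scheme.{u}} (c : C ⟶ Spec (CommRingCat.of k)) {T : Scheme.{u}}
    (t : T ⟶ Spec (CommRingCat.of k)) {W' W : T.Opens} (h : W' ≤ W) :
    Limits.pullback c (W'.ι ≫ t) ⟶ Limits.pullback c (W.ι ≫ t) :=
  baseChangeSnd c (openInclLE t h)

/-- The restriction `W ⟶ C × T` of the rigidifying section to an open `W` of the base. -/
abbrev vW {C : Scheme.{u}} (c : C ⟶ Spec (CommRingCat.of k)) {T : Scheme.{u}}
    (t : T ⟶ Spec (CommRingCat.of k)) (ε : SchemeHomOver (𝟙 (Spec (CommRingCat.of k))) c)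
    (W : T.Opens) : W.toScheme ⟶ Limits.pullback c t :=
  W.ι ≫ rigSection c t ε

variable {E E' E'' : (Limits.pullback c t).Modules}

/-- Restriction of a morphism over `W` to a smaller open `W'`. -/
def resB {W' W : T.Opens} (h : W' ≤ W)
    (a : (pullback (bW c t W)).obj E ⟶ (pullback (bW c t W)).obj E') :
    (pullback (bW c t W')).obj E ⟶ (pullback (bW c t W')).obj E' :=
  homAlong (bLE c t h) (baseChangeSnd_openInclLE_comp t h) a

/-- Restriction of a morphism along the section over `W` to a smaller open `W'`. -/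
def resS {W' W : T.Opens} (h : W' ≤ W)
    (r : (pullback (vW c t ε W)).obj E ⟶ (pullback (vW c t ε W)).obj E') :
    (pullback (vW c t ε W')).obj E ⟶ (pullback (vW c t ε W')).obj E' :=
  homAlong (T.homOfLE h) (homOfLE_ι_comp (rigSection c t ε) h) r

variable (ε) in
/-- Pullback along the rigidifying section of a morphism over `W`. -/
def sig (W : T.Opens) (a : (pullback (bW c t W)).obj E ⟶ (pullback (bW c t W)).obj E') :
    (pullback (vW c t ε W)).obj E ⟶ (pullback (vW c t ε W)).obj E' :=
  homAlong (rigSection c (W.ι ≫ t) ε) (rigSection_openIncl t W) a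

@[simp] theorem resB_id {W' W : T.Opens} (h : W' ≤ W) :
    resB h (𝟙 ((pullback (bW c t W)).obj E)) = 𝟙 _ := homAlong_id _ _ _

theorem resB_comp {W' W : T.Opens} (h : W' ≤ W)
    (a : (pullback (bW c t W)).obj E ⟶ (pullback (bW c t W)).obj E')
    (a' : (pullback (bW c t W)).obj E' ⟶ (pullback (bW c t W)).obj E'') :
    resB h (a ≫ a') = resB h a ≫ resB h a' := homAlong_comp _ _ _ _

@[simp] theorem resS_id {W' W : T.Opens} (h : W' ≤ W) :
    resS h (𝟙 ((pullback (vW c t ε W)).obj E)) = 𝟙 _ := homAlong_id _ _ _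

theorem resS_comp {W' W : T.Opens} (h : W' ≤ W)
    (r : (pullback (vW c t ε W)).obj E ⟶ (pullback (vW c t ε W)).obj E')
    (r' : (pullback (vW c t ε W)).obj E' ⟶ (pullback (vW c t ε W)).obj E'') :
    resS h (r ≫ r') = resS h r ≫ resS h r' := homAlong_comp _ _ _ _

@[simp] theorem sig_id (W : T.Opens) :
    sig ε W (𝟙 ((pullback (bW c t W)).obj E)) = 𝟙 _ := homAlong_id _ _ _

theorem sig_comp (W : T.Opens)
    (a : (pullback (bW c t W)).obj E ⟶ (pullback (bW c t W)).obj E')
    (a' : (pullback (bW c t W)).obj E' ⟶ (pullback (bW c t W)).obj E'') :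
    sig ε W (a ≫ a') = sig ε W a ≫ sig ε W a' := homAlong_comp _ _ _ _

theorem resB_resB {W'' W' W : T.Opens} (h' : W'' ≤ W') (h : W' ≤ W)
    (a : (pullback (bW c t W)).obj E ⟶ (pullback (bW c t W)).obj E') :
    resB h' (resB h a) = resB (h'.trans h) a := by
  unfold resB
  rw [homAlong_homAlong]
  apply homAlong_congr
  rw [baseChangeSnd_comp]
  congr 1
  apply Subtype.ext
  change T.homOfLE h' ≫ T.homOfLE h = T.homOfLE (h'.trans h)
  exact T.homOfLE_homOfLE h' h

theorem resS_resS {W'' W' W : T.Opens} (h' : W'' ≤ W') (h : W' ≤ W)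
    (r : (pullback (vW c t ε W)).obj E ⟶ (pullback (vW c t ε W)).obj E') :
    resS h' (resS h r) = resS (h'.trans h) r := by
  unfold resS
  rw [homAlong_homAlong]
  apply homAlong_congr
  exact T.homOfLE_homOfLE h' h

/-- Pullback along the section commutes with restriction. -/
theorem sig_resB {W' W : T.Opens} (h : W' ≤ W)
    (a : (pullback (bW c t W)).obj E ⟶ (pullback (bW c t W)).obj E') :
    sig ε W' (resB h a) = resS h (sig ε W a) := by
  unfold sig resB resS
  rw [homAlong_homAlong, homAlong_homAlong]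
  apply homAlong_congr
  exact rigSection_openInclLE t h

instance isIso_resB {W' W : T.Opens} (h : W' ≤ W)
    (a : (pullback (bW c t W)).obj E ⟶ (pullback (bW c t W)).obj E') [IsIso a] :
    IsIso (resB h a) := isIso_homAlong _ _ _

instance isIso_resS {W' W : T.Opens} (h : W' ≤ W)
    (r : (pullback (vW c t ε W)).obj E ⟶ (pullback (vW c t ε W)).obj E') [IsIso r] :
    IsIso (resS h r) := isIso_homAlong _ _ _

instance isIso_sig (W : T.Opens)
    (a : (pullback (bW c t W)).obj E ⟶ (pullback (bW c t W)).obj E') [IsIso a] :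
    IsIso (sig ε W a) := isIso_homAlong _ _ _

theorem resS_inv {W' W : T.Opens} (h : W' ≤ W)
    (r : (pullback (vW c t ε W)).obj E ⟶ (pullback (vW c t ε W)).obj E') [IsIso r] :
    resS h (inv r) = inv (resS h r) := by
  apply IsIso.eq_inv_of_hom_inv_id
  rw [← resS_comp, IsIso.hom_inv_id, resS_id]

end

end Fermat.Agent.Jac.Functor32
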