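/-
Programme JAC (S25), brick R1 (helper32): dictionary between morphisms of pullbacks along an open
immersion `g : Y ⟶ X` and helper88's sectionwise local morphisms over the range of `g`,
compatible with composition and with restriction (`homAlong`).
-/
import Mathlib
import Fermat.Agent.Jac.Functor32.CoverGlue

set_option autoImplicit false

universe u

open CategoryTheory AlgebraicGeometry

namespace Fermat.Agent.Jac.Functor32

open Scheme.Modules ModGlue88

noncomputable section

variable {X Y Y' : Scheme.{u}} {M N P : X.Modules}

section Opens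

/-- The dictionary for an open subscheme. -/
def toLocalι (U : X.Opens) (a : (pullback U.ι).obj M ⟶ (pullback U.ι).obj N) : LocalHom M N U :=
  LocalHom.ofRestrictι U (ofPullbackHom U.ι a)

/-- The inverse dictionary for an open subscheme. -/
def ofLocalι (U : X.Opens) (L : LocalHom M N U) : (pullback U.ι).obj M ⟶ (pullback U.ι).obj N :=
  toPullbackHom U.ι (LocalHom.toRestrictι U L)

@[simp] theorem ofLocalι_toLocalι (U : X.Opens) (a : (pullback U.ι).obj M ⟶ (pullback U.ι).obj N) :
    ofLocalι U (toLocalι U a) = a := by
  simp [ofLocalι, toLocalι]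

@[simp] theorem toLocalι_ofLocalι (U : X.Opens) (L : LocalHom M N U) :
    toLocalι U (ofLocalι U L) = L := by
  simp [ofLocalι, toLocalι]

theorem toLocalι_id (U : X.Opens) : toLocalι U (𝟙 ((pullback U.ι).obj M)) = LocalHom.id M U := by
  simp [toLocalι]

theorem toLocalι_comp (U : X.Opens) (a : (pullback U.ι).obj M ⟶ (pullback U.ι).obj N)
    (b : (pullback U.ι).obj N ⟶ (pullback U.ι).obj P) :
    toLocalι U (a ≫ b) = (toLocalι U a).comp (toLocalι U b) := by
  simp [toLocalι]

theorem toLocalι_map (U : X.Opens) (f : M ⟶ N) :
    toLocalι U ((pullback U.ι).map f) = LocalHom.ofHom f U := by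
  simp [toLocalι]

theorem toLocalι_homAlong {U' U : X.Opens} (h : U' ≤ U)
    (a : (pullback U.ι).obj M ⟶ (pullback U.ι).obj N) :
    toLocalι U' (homAlong (X.homOfLE h) (X.homOfLE_ι h) a) = (toLocalι U a).restrict h := by
  rw [← pullbackResHom_eq_homAlong]
  unfold toLocalι
  rw [ofPullbackHom_pullbackResHom, LocalHom.ofRestrictι_resHom]

end Opens

section Immersion

variable (g : Y ⟶ X) [IsOpenImmersion g]

/-- The dictionary: a morphism between the pullbacks along an open immersion `g` is a local
morphism over the range of `g`. -/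
def toLocal (a : (pullback g).obj M ⟶ (pullback g).obj N) : LocalHom M N g.opensRange :=
  toLocalι g.opensRange (homAlong (rangeLift g) (rangeLift_fac g) a)

/-- The inverse dictionary. -/
def ofLocal (L : LocalHom M N g.opensRange) : (pullback g).obj M ⟶ (pullback g).obj N :=
  homAlong (rangeLiftInv g) (rangeLiftInv_fac g) (ofLocalι g.opensRange L)

theorem homAlong_rangeLiftInv_rangeLift (a : (pullback g).obj M ⟶ (pullback g).obj N) :
    homAlong (rangeLiftInv g) (rangeLiftInv_fac g) (homAlong (rangeLift g) (rangeLift_fac g) a) =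
      a := by
  rw [homAlong_homAlong, homAlong_congr (rangeLiftInv_lift g) _ (Category.id_comp g),
    homAlong_id']

theorem homAlong_rangeLift_rangeLiftInv
    (a : (pullback g.opensRange.ι).obj M ⟶ (pullback g.opensRange.ι).obj N) :
    homAlong (rangeLift g) (rangeLift_fac g) (homAlong (rangeLiftInv g) (rangeLiftInv_fac g) a) =
      a := by
  rw [homAlong_homAlong, homAlong_congr (rangeLift_inv g) _ (Category.id_comp _), homAlong_id']

@[simp] theorem ofLocal_toLocal (a : (pullback g).obj M ⟶ (pullback g).obj N) :
    ofLocal g (toLocal g a) = a := by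
  unfold ofLocal toLocal
  rw [ofLocalι_toLocalι, homAlong_rangeLiftInv_rangeLift]

@[simp] theorem toLocal_ofLocal (L : LocalHom M N g.opensRange) : toLocal g (ofLocal g L) = L := by
  unfold ofLocal toLocal
  rw [homAlong_rangeLift_rangeLiftInv, toLocalι_ofLocalι]

theorem toLocal_injective :
    Function.Injective (toLocal g : ((pullback g).obj M ⟶ (pullback g).obj N) → _) :=
  Function.LeftInverse.injective (ofLocal_toLocal g)

theorem toLocal_id : toLocal g (𝟙 ((pullback g).obj M)) = LocalHom.id M g.opensRange := by
  unfold toLocal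
  rw [homAlong_id, toLocalι_id]

theorem toLocal_comp (a : (pullback g).obj M ⟶ (pullback g).obj N)
    (b : (pullback g).obj N ⟶ (pullback g).obj P) :
    toLocal g (a ≫ b) = (toLocal g a).comp (toLocal g b) := by
  unfold toLocal
  rw [homAlong_comp, toLocalι_comp]

theorem toLocal_map (f : M ⟶ N) : toLocal g ((pullback g).map f) = LocalHom.ofHom f _ := by
  unfold toLocal
  rw [homAlong_map, toLocalι_map]

theorem ofLocal_comp (L : LocalHom M N g.opensRange) (L' : LocalHom N P g.opensRange) :
    ofLocal g (L.comp L') = ofLocal g L ≫ ofLocal g L' := by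
  apply toLocal_injective g
  rw [toLocal_comp, toLocal_ofLocal, toLocal_ofLocal, toLocal_ofLocal]

theorem ofLocal_id : ofLocal g (LocalHom.id M g.opensRange) = 𝟙 _ := by
  apply toLocal_injective g
  rw [toLocal_ofLocal, toLocal_id]

/-- Compatibility of the dictionary with restriction along a further open immersion. -/
theorem toLocal_homAlong (g' : Y' ⟶ X) [IsOpenImmersion g'] (q : Y' ⟶ Y) (h : q ≫ g = g')
    (hle : g'.opensRange ≤ g.opensRange) (a : (pullback g).obj M ⟶ (pullback g).obj N) :
    toLocal g' (homAlong q h a) = (toLocal g a).restrict hle := by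
  unfold toLocal
  rw [← toLocalι_homAlong hle, homAlong_homAlong, homAlong_homAlong]
  congr 1
  apply homAlong_congr
  rw [← cancel_mono g, Category.assoc, Category.assoc, h, rangeLift_fac, rangeLift_fac,
    Scheme.homOfLE_ι]

end Immersion

end

end Fermat.Agent.Jac.Functor32
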