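/-
Programme JAC (S25), brick R1 (helper32): gluing of rigidified invertible modules on `C × T`
along an open cover of the base `T` (the axiom `glue` of `ClassesIsSheaf`), under (HΓ).
-/
import Mathlib
import Fermat.Agent.Jac.Functor32.BS
import Fermat.Agent.Jac.Functor32.GFF
import Fermat.Agent.Jac.Functor32.LocDict
import Fermat.Agent.Jac.ModGlue88.GlueObj

set_option autoImplicit false

universe u

open CategoryTheory AlgebraicGeometry AlgebraicGeometry.RelPicard NeronModelInfra

namespace Fermat.Agent.Jac.Functor32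

open Scheme.Modules ModGlue88

noncomputable section

variable {k : Type u} [Field k] {C : Scheme.{u}} {c : C ⟶ Spec (CommRingCat.of k)}
  {ε : SchemeHomOver (𝟙 (Spec (CommRingCat.of k))) c}
  {T : Scheme.{u}} {t : T ⟶ Spec (CommRingCat.of k)}

/-- A module on `C × T` which is invertible over the open `U` of the base, with a rigidification
over `U` (an isomorphism with the structure sheaf after pullback along the section over `U`). -/
structure RigOver (ε : SchemeHomOver (𝟙 (Spec (CommRingCat.of k))) c)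
    (O : (Limits.pullback c t).Modules) (U : T.Opens) (E : (Limits.pullback c t).Modules) where
  inv : ∀ W : T.Opens, W ≤ U → Scheme.Modules.IsInvertible ((pullback (bW c t W)).obj E)
  /-- the rigidification (`O` is a fixed reference module, in practice the structure sheaf) -/
  rig : (pullback (vW c t ε U)).obj E ≅ (pullback (vW c t ε U)).obj O

variable {O E E' E'' : (Limits.pullback c t).Modules} {U U' U'' : T.Opens}

/-- The rigidification restricted to a smaller open. -/
def RigOver.rigAt (R : RigOver ε O U E) {W : T.Opens} (h : W ≤ U) :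
    (pullback (vW c t ε W)).obj E ⟶ (pullback (vW c t ε W)).obj O :=
  resS h R.rig.hom

instance (R : RigOver ε O U E) {W : T.Opens} (h : W ≤ U) : IsIso (R.rigAt h) := by
  unfold RigOver.rigAt
  infer_instance

theorem RigOver.resS_rigAt (R : RigOver ε O U E) {W' W : T.Opens} (h' : W' ≤ W) (h : W ≤ U) :
    resS h' (R.rigAt h) = R.rigAt (h'.trans h) := resS_resS h' h _

/-- A morphism over `W` is normalised if it is compatible with the rigidifications. -/
def IsNorm (R : RigOver ε O U E) (R' : RigOver ε O U' E') (W : T.Opens) (hW : W ≤ U) (hW' : W ≤ U')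
    (a : (pullback (bW c t W)).obj E ⟶ (pullback (bW c t W)).obj E') : Prop :=
  sig ε W a ≫ R'.rigAt hW' = R.rigAt hW

theorem IsNorm.restrict {R : RigOver ε O U E} {R' : RigOver ε O U' E'} {W : T.Opens} {hW : W ≤ U}
    {hW' : W ≤ U'} {a : (pullback (bW c t W)).obj E ⟶ (pullback (bW c t W)).obj E'}
    (ha : IsNorm R R' W hW hW' a) {W' : T.Opens} (h : W' ≤ W) :
    IsNorm R R' W' (h.trans hW) (h.trans hW') (resB h a) := by
  unfold IsNorm at ha ⊢
  rw [sig_resB, ← R'.resS_rigAt h hW', ← resS_comp, ha, R.resS_rigAt]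

theorem IsNorm.comp {R : RigOver ε O U E} {R' : RigOver ε O U' E'} {R'' : RigOver ε O U'' E''}
    {W : T.Opens} {hW : W ≤ U} {hW' : W ≤ U'} {hW'' : W ≤ U''}
    {a : (pullback (bW c t W)).obj E ⟶ (pullback (bW c t W)).obj E'}
    {a' : (pullback (bW c t W)).obj E' ⟶ (pullback (bW c t W)).obj E''}
    (ha : IsNorm R R' W hW hW' a) (ha' : IsNorm R' R'' W hW' hW'' a') :
    IsNorm R R'' W hW hW'' (a ≫ a') := by
  unfold IsNorm at ha ha' ⊢
  rw [sig_comp, Category.assoc, ha', ha]

theorem isNorm_id (R : RigOver ε O U E) (W : T.Opens) (hW hW' : W ≤ U) :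
    IsNorm R R W hW hW' (𝟙 _) := by
  unfold IsNorm
  rw [sig_id, Category.id_comp]

/-- Normalised isomorphisms are unique. -/
theorem IsNorm.unique (hΓ : HGamma c ε) {R : RigOver ε O U E} {R' : RigOver ε O U' E'} {W : T.Opens}
    {hW : W ≤ U} {hW' : W ≤ U'}
    {a a' : (pullback (bW c t W)).obj E ⟶ (pullback (bW c t W)).obj E'} [IsIso a] [IsIso a']
    (ha : IsNorm R R' W hW hW' a) (ha' : IsNorm R R' W hW hW' a') : a = a' := by
  unfold IsNorm at ha ha'
  have h1 : sig ε W a = sig ε W a' := by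
    rw [← cancel_mono (R'.rigAt hW'), ha, ha']
  exact iso_hom_eq_of_homAlong_eq' (rigSection_openIncl t W) (hΓ (W.ι ≫ t)) (R.inv W hW)
    (asIso a) (asIso a') h1

/-- Normalised isomorphisms exist as soon as some isomorphism exists. -/
theorem exists_isNorm (R : RigOver ε O U E) (R' : RigOver ε O U' E') (W : T.Opens)
    (hW : W ≤ U) (hW' : W ≤ U')
    (a : (pullback (bW c t W)).obj E ≅ (pullback (bW c t W)).obj E') :
    ∃ a' : (pullback (bW c t W)).obj E ≅ (pullback (bW c t W)).obj E',
      IsNorm R R' W hW hW' a'.hom := by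
  obtain ⟨a', ha'⟩ := exists_iso_homAlong_eq' (rigSection_openIncl t W)
    (rigSection_snd (ε := ε) (W.ι ≫ t)) (R.inv W hW) a
    (asIso (R.rigAt hW) ≪≫ (asIso (R'.rigAt hW')).symm)
  refine ⟨a', ?_⟩
  unfold IsNorm sig
  rw [ha']
  simp

theorem LocalHom_restrict_self {X : Scheme.{u}} {M N : X.Modules} {V : X.Opens}
    (L : LocalHom M N V) (h : V ≤ V) : L.restrict h = L := by
  ext W hW x
  rfl

theorem opensRange_bW_le {W' W : T.Opens} (h : W' ≤ W) :
    (bW c t W').opensRange ≤ (bW c t W).opensRange := by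
  rw [opensRange_baseChangeSnd_openIncl, opensRange_baseChangeSnd_openIncl]
  exact (Limits.pullback.snd c t).preimage_mono h

/-- The dictionary is compatible with `resB`. -/
theorem toLocal_resB {W' W : T.Opens} (h : W' ≤ W)
    (a : (pullback (bW c t W)).obj E ⟶ (pullback (bW c t W)).obj E') :
    toLocal (bW c t W') (resB h a) = (toLocal (bW c t W) a).restrict (opensRange_bW_le h) :=
  toLocal_homAlong (bW c t W) (bW c t W') (bLE c t h) (baseChangeSnd_openInclLE_comp t h)
    (opensRange_bW_le h) a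

theorem toLocal_resB_restrict {W' W : T.Opens} (h : W' ≤ W)
    (a : (pullback (bW c t W)).obj E ⟶ (pullback (bW c t W)).obj E')
    (V' : (Limits.pullback c t).Opens) (h1 : V' ≤ (bW c t W').opensRange)
    (h2 : V' ≤ (bW c t W).opensRange) :
    (toLocal (bW c t W') (resB h a)).restrict h1 = (toLocal (bW c t W) a).restrict h2 := by
  rw [toLocal_resB, LocalHom.restrict_restrict]

theorem opensRange_bW_inf (W W' : T.Opens) :
    (bW c t (W ⊓ W')).opensRange = (bW c t W).opensRange ⊓ (bW c t W').opensRange := by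
  rw [opensRange_baseChangeSnd_openIncl, opensRange_baseChangeSnd_openIncl,
    opensRange_baseChangeSnd_openIncl]
  rfl

/-- **Gluing** of modules on `C × T`, invertible and rigidified over the members of an open
cover of `T`, and isomorphic on the overlaps. -/
theorem exists_glued (hΓ : HGamma c ε) {ι : Type u} (U : ι → T.Opens) (hU : ⨆ i, U i = ⊤)
    (E : ι → (Limits.pullback c t).Modules) (R : ∀ i, RigOver ε O (U i) (E i))
    (hiso : ∀ i j, Nonempty ((pullback (bW c t (U i ⊓ U j))).obj (E i) ≅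
      (pullback (bW c t (U i ⊓ U j))).obj (E j))) :
    ∃ L₀ : (Limits.pullback c t).Modules,
      (∀ i, Nonempty ((pullback (bW c t (U i))).obj L₀ ≅ (pullback (bW c t (U i))).obj (E i))) ∧
      Nonempty ((pullback (rigSection c t ε)).obj L₀ ≅ (pullback (rigSection c t ε)).obj O) := by
  -- Step 1: normalised transition isomorphisms
  have h1 : ∀ i j, ∃ φ : (pullback (bW c t (U i ⊓ U j))).obj (E i) ≅
      (pullback (bW c t (U i ⊓ U j))).obj (E j),
      IsNorm (R i) (R j) (U i ⊓ U j) inf_le_left inf_le_right φ.hom :=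
    fun i j => exists_isNorm (R i) (R j) _ _ _ (hiso i j).some
  choose φ hφ using h1
  -- Step 2: identity and cocycle conditions
  have hid : ∀ i, (φ i i).hom = 𝟙 _ := fun i =>
    IsNorm.unique hΓ (hφ i i) (isNorm_id (R i) _ _ _)
  have hcoc : ∀ i j k,
      resB (inf_le_left : U i ⊓ U j ⊓ U k ≤ U i ⊓ U j) (φ i j).hom ≫
        resB (le_inf (inf_le_left.trans inf_le_right) inf_le_right :
          U i ⊓ U j ⊓ U k ≤ U j ⊓ U k) (φ j k).hom =
      resB (le_inf (inf_le_left.trans inf_le_left) inf_le_right :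
          U i ⊓ U j ⊓ U k ≤ U i ⊓ U k) (φ i k).hom := fun i j k =>
    IsNorm.unique hΓ (((hφ i j).restrict _).comp ((hφ j k).restrict _)) ((hφ i k).restrict _)
  -- Step 3: conversion to local morphisms and gluing
  let V : ι → (Limits.pullback c t).Opens := fun i => (bW c t (U i)).opensRange
  have hV2 : ∀ i j, V i ⊓ V j ≤ (bW c t (U i ⊓ U j)).opensRange :=
    fun i j => le_of_eq (opensRange_bW_inf (U i) (U j)).symm
  have hV2' : ∀ i j, (bW c t (U i ⊓ U j)).opensRange ≤ V i ⊓ V j :=
    fun i j => le_of_eq (opensRange_bW_inf (U i) (U j))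
  have hV3 : ∀ i j k, V i ⊓ V j ⊓ V k ≤ (bW c t (U i ⊓ U j ⊓ U k)).opensRange := fun i j k => by
    rw [opensRange_bW_inf, opensRange_bW_inf]
  let φL : ∀ i j, LocalHom (E i) (E j) (V i ⊓ V j) :=
    fun i j => (toLocal (bW c t (U i ⊓ U j)) (φ i j).hom).restrict (hV2 i j)
  have hidL : ∀ i, φL i i = LocalHom.id (E i) (V i ⊓ V i) := fun i => by
    change (toLocal (bW c t (U i ⊓ U i)) (φ i i).hom).restrict (hV2 i i) = _
    rw [hid i, toLocal_id, LocalHom.restrict_id]
  have hcocL : ∀ i j k,
      ((φL i j).restrict (inf_le_left : V i ⊓ V j ⊓ V k ≤ V i ⊓ V j)).comp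
        ((φL j k).restrict (le_inf (inf_le_left.trans inf_le_right) inf_le_right :
          V i ⊓ V j ⊓ V k ≤ V j ⊓ V k)) =
      (φL i k).restrict (le_inf (inf_le_left.trans inf_le_left) inf_le_right :
          V i ⊓ V j ⊓ V k ≤ V i ⊓ V k) := fun i j k => by
    change LocalHom.comp
      (((toLocal (bW c t (U i ⊓ U j)) (φ i j).hom).restrict (hV2 i j)).restrict _)
      (((toLocal (bW c t (U j ⊓ U k)) (φ j k).hom).restrict (hV2 j k)).restrict _) =
      ((toLocal (bW c t (U i ⊓ U k)) (φ i k).hom).restrict (hV2 i k)).restrict _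
    rw [LocalHom.restrict_restrict, LocalHom.restrict_restrict, LocalHom.restrict_restrict,
      ← toLocal_resB_restrict (inf_le_left : U i ⊓ U j ⊓ U k ≤ U i ⊓ U j) _ _ (hV3 i j k),
      ← toLocal_resB_restrict (le_inf (inf_le_left.trans inf_le_right) inf_le_right :
          U i ⊓ U j ⊓ U k ≤ U j ⊓ U k) _ _ (hV3 i j k),
      ← toLocal_resB_restrict (le_inf (inf_le_left.trans inf_le_left) inf_le_right :
          U i ⊓ U j ⊓ U k ≤ U i ⊓ U k) _ _ (hV3 i j k),
      ← LocalHom.restrict_comp, ← toLocal_comp, hcoc i j k]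
  obtain ⟨L₀, β, β', hββ', hβ'β, hcompat⟩ := exists_glue_obj V E φL hidL hcocL
  -- Step 5: back to isomorphisms of pullbacks
  let βt : ∀ i, (pullback (bW c t (U i))).obj L₀ ≅ (pullback (bW c t (U i))).obj (E i) := fun i =>
    { hom := ofLocal (bW c t (U i)) (β i)
      inv := ofLocal (bW c t (U i)) (β' i)
      hom_inv_id := by rw [← ofLocal_comp, hββ' i, ofLocal_id]
      inv_hom_id := by rw [← ofLocal_comp, hβ'β i, ofLocal_id] }
  have hβt : ∀ i j, resB (inf_le_left : U i ⊓ U j ≤ U i) (βt i).hom ≫ (φ i j).hom =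
      resB (inf_le_right : U i ⊓ U j ≤ U j) (βt j).hom := fun i j => by
    apply toLocal_injective (bW c t (U i ⊓ U j))
    rw [toLocal_comp, toLocal_resB, toLocal_resB]
    change ((toLocal (bW c t (U i)) (ofLocal (bW c t (U i)) (β i))).restrict _).comp _ =
      (toLocal (bW c t (U j)) (ofLocal (bW c t (U j)) (β j))).restrict _
    rw [toLocal_ofLocal, toLocal_ofLocal]
    have h := congrArg (fun L => LocalHom.restrict L (hV2' i j)) (hcompat i j)
    simp only [LocalHom.restrict_comp, LocalHom.restrict_restrict] at h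
    change ((β i).restrict _).comp
      ((toLocal (bW c t (U i ⊓ U j)) (φ i j).hom).restrict ((hV2' i j).trans (hV2 i j))) =
        (β j).restrict _ at h
    rw [LocalHom_restrict_self] at h
    exact h
  refine ⟨L₀, fun i => ⟨βt i⟩, ?_⟩
  -- Step 6: the rigidification
  let r : ∀ i, (pullback (vW c t ε (U i))).obj L₀ ⟶ (pullback (vW c t ε (U i))).obj O :=
    fun i => sig ε (U i) (βt i).hom ≫ (R i).rig.hom
  have hr : ∀ i j, resS (inf_le_left : U i ⊓ U j ≤ U i) (r i) =
      resS (inf_le_right : U i ⊓ U j ≤ U j) (r j) := fun i j => by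
    change resS _ (sig ε (U i) (βt i).hom ≫ (R i).rig.hom) =
      resS _ (sig ε (U j) (βt j).hom ≫ (R j).rig.hom)
    rw [resS_comp, resS_comp, ← sig_resB, ← sig_resB, ← hβt i j, sig_comp, Category.assoc]
    congr 1
    exact (hφ i j).symm
  obtain ⟨ρ₀, hρ₀, -⟩ := existsUnique_hom_along (rigSection c t ε) U hU r hr
  have hiso₀ : IsIso ρ₀ := isIso_of_isIso_along (rigSection c t ε) U hU ρ₀ (fun i => by
    rw [hρ₀ i]
    change IsIso (sig ε (U i) (βt i).hom ≫ (R i).rig.hom)
    have h1 : IsIso (βt i).hom := (βt i).isIso_hom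
    have h2 : IsIso (sig ε (U i) (βt i).hom) := isIso_sig _ _
    infer_instance)
  exact ⟨asIso ρ₀⟩

/-- The field `glue` of `ClassesIsSheaf`, from hypothesis (HΓ). -/
theorem classes_glue (hΓ : HGamma c ε) {ι : Type u} (U : ι → T.Opens) (hU : ⨆ i, U i = ⊤)
    (M : ∀ i, RigidifiedLineBundle c ε ((U i).ι ≫ t))
    (h : ∀ i j, Nonempty
      (((M i).pullbackAlong (openInclLE t (inf_le_left : U i ⊓ U j ≤ U i))).L ≅
        ((M j).pullbackAlong (openInclLE t (inf_le_right : U i ⊓ U j ≤ U j))).L)) :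
    ∃ M₀ : RigidifiedLineBundle c ε t, ∀ i, Nonempty ((restrictOpen M₀ (U i)).L ≅ (M i).L) := by
  -- global carriers
  let E : ι → (Limits.pullback c t).Modules := fun i => (pushforward (bW c t (U i))).obj (M i).L
  let η : ∀ i, (pullback (bW c t (U i))).obj (E i) ≅ (M i).L := fun i =>
    ((restrictFunctorIsoPullback (bW c t (U i))).app (E i)).symm ≪≫
      (restrictFunctorAdjCounitIso (bW c t (U i))).app (M i).L
  let ζ : ∀ i (W : T.Opens) (hW : W ≤ U i),
      (pullback (bW c t W)).obj (E i) ≅ (pullback (bLE c t hW)).obj (M i).L := fun i W hW =>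
    (compIso (bLE c t hW) (baseChangeSnd_openInclLE_comp t hW) (E i)).symm ≪≫
      (pullback (bLE c t hW)).mapIso (η i)
  let R : ∀ i, RigOver ε (unitMod (Limits.pullback c t)) (U i) (E i) := fun i =>
    { inv := fun W hW => isInvertible_of_iso (ζ i W hW).symm ((M i).isInvertible.pullback _)
      rig := (compIso (rigSection c ((U i).ι ≫ t) ε) (rigSection_openIncl t (U i)) (E i)).symm ≪≫
        (pullback (rigSection c ((U i).ι ≫ t) ε)).mapIso (η i) ≪≫ (M i).rigidified.some ≪≫
        (pullbackUnitIso (vW c t ε (U i))).symm }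
  obtain ⟨L₀, he, ⟨ρ⟩⟩ := exists_glued hΓ U hU E R (fun i j =>
    ⟨ζ i (U i ⊓ U j) inf_le_left ≪≫ (h i j).some ≪≫ (ζ j (U i ⊓ U j) inf_le_right).symm⟩)
  have hinv : Scheme.Modules.IsInvertible L₀ :=
    isInvertible_of_openCover_pullback (fun i => bW c t (U i))
      (iSup_opensRange_baseChangeSnd t U hU)
      (fun i => isInvertible_of_iso ((he i).some ≪≫ η i).symm (M i).isInvertible)
  exact ⟨⟨L₀, hinv, ⟨ρ ≪≫ pullbackUnitIso (rigSection c t ε)⟩⟩, fun i => ⟨(he i).some ≪≫ η i⟩⟩

end

end Fermat.Agent.Jac.Functor32
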