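/-
Programme JAC (S25), brick R1 (helper32): **isomorphism classes of rigidified line bundles on
`C × T` form a Zariski sheaf in `T`** (`ClassesIsSheaf c ε` of `Jac/RepInterface.lean`), under the
single hypothesis (HΓ) that functions on `C × T` are determined by their restriction to the
rigidifying section.
-/
import Mathlib
import Fermat.Agent.Jac.Functor32.Small
import Fermat.Agent.Jac.Functor32.Sep
import Fermat.Agent.Jac.Functor32.Glue

set_option autoImplicit false

universe u

open CategoryTheory AlgebraicGeometry AlgebraicGeometry.RelPicard NeronModelInfra

namespace Fermat.Agent.Jac.Functor32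

variable {k : Type u} [Field k] {C : Scheme.{u}} {c : C ⟶ Spec (CommRingCat.of k)}
  {ε : SchemeHomOver (𝟙 (Spec (CommRingCat.of k))) c}

/-- **Brick R1.** -/
theorem classesIsSheaf (hΓ : HGamma c ε) : ClassesIsSheaf c ε where
  small := fun t => classes_small t
  sep := fun _ M M' _ U hU h => classes_sep hΓ M M' U hU h
  glue := fun _ _ U hU M h => classes_glue hΓ U hU M h

end Fermat.Agent.Jac.Functor32
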