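/-
Programme JAC (S25), brick R1 (helper32), part 1: the cut rigidified Picard functor as a
`Type u`-valued presheaf on `Scheme.{u}`.

`F(T) = Σ (t : T ⟶ Spec R), Shrink {ξ : Classes c ε t // P ξ}`.
-/
import Mathlib
import Fermat.Prelude.Def_AlgebraicGeometry_RepresentsRelSubPic

set_option autoImplicit false

universe u

open CategoryTheory CategoryTheory.Limits AlgebraicGeometry AlgebraicGeometry.RelPicard
  NeronModelInfra Opposite

namespace Fermat.Agent.Jac.Functor32

noncomputable section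

variable {R : Type u} [CommRing R] {C : Scheme.{u}} {c : C ⟶ Spec (CommRingCat.of R)}
  {ε : SchemeHomOver (𝟙 (Spec (CommRingCat.of R))) c}

section Classes

open RigidifiedLineBundle

theorem classesMap_mk {T T' : Scheme.{u}} {t : T ⟶ Spec (CommRingCat.of R)}
    {t' : T' ⟶ Spec (CommRingCat.of R)} (ψ : SchemeHomOver t' t)
    (M : RigidifiedLineBundle c ε t) :
    classesMap ψ (Quotient.mk _ M : Classes c ε t) = Quotient.mk _ (M.pullbackAlong ψ) :=
  rfl

theorem classesMap_id {T : Scheme.{u}} (t : T ⟶ Spec (CommRingCat.of R)) (ξ : Classes c ε t) :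
    classesMap (⟨𝟙 T, Category.id_comp t⟩ : SchemeHomOver t t) ξ = ξ := by
  induction ξ using Quotient.ind with
  | _ M =>
    exact Quotient.sound
      ⟨(Scheme.Modules.pullbackCongr (baseChangeSnd_id c t)).app M.L ≪≫
        (Scheme.Modules.pullbackId (pullback c t)).app M.L⟩

theorem classesMap_comp {X X' T' : Scheme.{u}} {x : X ⟶ Spec (CommRingCat.of R)}
    {x' : X' ⟶ Spec (CommRingCat.of R)} {t' : T' ⟶ Spec (CommRingCat.of R)}
    (φ : SchemeHomOver x x') (ψ : SchemeHomOver t' x) (ξ : Classes c ε x') :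
    classesMap ψ (classesMap φ ξ) = classesMap (postComp φ ψ) ξ := by
  induction ξ using Quotient.ind with
  | _ M =>
    exact Quotient.sound
      ⟨(Scheme.Modules.pullbackComp _ _).app M.L ≪≫
        (Scheme.Modules.pullbackCongr (baseChangeSnd_comp c φ ψ)).app M.L⟩

/-- A `SubPicCondition` descends to isomorphism classes. -/
def onClasses (P : SubPicCondition c ε) {T : Scheme.{u}} (t : T ⟶ Spec (CommRingCat.of R)) :
    Classes c ε t → Prop :=
  Quotient.lift (fun M => P.P t M)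
    (fun M M' h => propext ⟨P.congr t M M' h, P.congr t M' M ⟨h.some.symm⟩⟩)

@[simp]
theorem onClasses_mk (P : SubPicCondition c ε) {T : Scheme.{u}}
    (t : T ⟶ Spec (CommRingCat.of R)) (M : RigidifiedLineBundle c ε t) :
    onClasses P t (Quotient.mk _ M) ↔ P.P t M :=
  Iff.rfl

theorem onClasses_classesMap (P : SubPicCondition c ε) {T T' : Scheme.{u}}
    {t : T ⟶ Spec (CommRingCat.of R)} {t' : T' ⟶ Spec (CommRingCat.of R)}
    (ψ : SchemeHomOver t' t) (ξ : Classes c ε t) (h : onClasses P t ξ) :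
    onClasses P t' (classesMap ψ ξ) := by
  induction ξ using Quotient.ind with
  | _ M => exact P.pullback_mem t t' ψ M h

/-- The unit class. -/
def unitClass {T : Scheme.{u}} (t : T ⟶ Spec (CommRingCat.of R)) : Classes c ε t :=
  Quotient.mk _ (RigidifiedLineBundle.unit t)

theorem onClasses_unitClass (P : SubPicCondition c ε) {T : Scheme.{u}}
    (t : T ⟶ Spec (CommRingCat.of R)) : onClasses P t (unitClass (c := c) (ε := ε) t) :=
  P.unit_mem t

end Classes

section Cut

open RigidifiedLineBundle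

/-- Classes of rigidified line bundles satisfying the condition `P`. -/
def CutClasses (P : SubPicCondition c ε) {T : Scheme.{u}} (t : T ⟶ Spec (CommRingCat.of R)) :
    Type (u + 1) :=
  {ξ : Classes c ε t // onClasses P t ξ}

/-- Functoriality of `CutClasses`. -/
def cutMap (P : SubPicCondition c ε) {T T' : Scheme.{u}} {t : T ⟶ Spec (CommRingCat.of R)}
    {t' : T' ⟶ Spec (CommRingCat.of R)} (ψ : SchemeHomOver t' t) :
    CutClasses P t → CutClasses P t' :=
  fun ξ => ⟨classesMap ψ ξ.1, onClasses_classesMap P ψ ξ.1 ξ.2⟩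

@[simp]
theorem cutMap_val (P : SubPicCondition c ε) {T T' : Scheme.{u}}
    {t : T ⟶ Spec (CommRingCat.of R)} {t' : T' ⟶ Spec (CommRingCat.of R)}
    (ψ : SchemeHomOver t' t) (ξ : CutClasses P t) : (cutMap P ψ ξ).1 = classesMap ψ ξ.1 :=
  rfl

theorem cutMap_id (P : SubPicCondition c ε) {T : Scheme.{u}} (t : T ⟶ Spec (CommRingCat.of R))
    (ξ : CutClasses P t) : cutMap P (⟨𝟙 T, Category.id_comp t⟩ : SchemeHomOver t t) ξ = ξ :=
  Subtype.ext (classesMap_id t ξ.1)

theorem cutMap_comp (P : SubPicCondition c ε) {X X' T' : Scheme.{u}}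
    {x : X ⟶ Spec (CommRingCat.of R)} {x' : X' ⟶ Spec (CommRingCat.of R)}
    {t' : T' ⟶ Spec (CommRingCat.of R)} (φ : SchemeHomOver x x') (ψ : SchemeHomOver t' x)
    (ξ : CutClasses P x') : cutMap P ψ (cutMap P φ ξ) = cutMap P (postComp φ ψ) ξ :=
  Subtype.ext (classesMap_comp φ ψ ξ.1)

/-- Smallness of the cut classes: the hypothesis under which the functor is `Type u`-valued. -/
class SmallCut (P : SubPicCondition c ε) : Prop where
  small : ∀ {T : Scheme.{u}} (t : T ⟶ Spec (CommRingCat.of R)), Small.{u} (CutClasses P t)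

attribute [instance] SmallCut.small

end Cut

section Functor

variable (P : SubPicCondition c ε) [SmallCut P]

/-- Sections of the cut rigidified Picard functor over `T`. -/
def Obj (T : Scheme.{u}) : Type u :=
  Σ t : T ⟶ Spec (CommRingCat.of R), Shrink.{u} (CutClasses P t)

variable {P}

/-- Constructor for sections: pull back a cut class along `ψ`. -/
def mkObj {T T' : Scheme.{u}} {t : T ⟶ Spec (CommRingCat.of R)}
    (t' : T' ⟶ Spec (CommRingCat.of R)) (ψ : SchemeHomOver t' t) (ξ : CutClasses P t) :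
    Obj P T' :=
  ⟨t', equivShrink _ (cutMap P ψ ξ)⟩

theorem mkObj_congr {T T' : Scheme.{u}} {t : T ⟶ Spec (CommRingCat.of R)}
    {t₁ t₂ : T' ⟶ Spec (CommRingCat.of R)} (h : t₁ = t₂) (ψ₁ : SchemeHomOver t₁ t)
    (ψ₂ : SchemeHomOver t₂ t) (hψ : ψ₁.1 = ψ₂.1) (ξ : CutClasses P t) :
    mkObj t₁ ψ₁ ξ = mkObj t₂ ψ₂ ξ := by
  subst h
  have : ψ₁ = ψ₂ := Subtype.ext hψ
  rw [this]

/-- The section with structure map `t` and class `ξ`. -/
def ofCut {T : Scheme.{u}} (t : T ⟶ Spec (CommRingCat.of R)) (ξ : CutClasses P t) :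
    Obj P T :=
  ⟨t, equivShrink _ ξ⟩

theorem mkObj_id {T : Scheme.{u}} {t t' : T ⟶ Spec (CommRingCat.of R)} (ψ : SchemeHomOver t' t)
    (hψ : ψ.1 = 𝟙 T) (ξ : CutClasses P t) : mkObj t' ψ ξ = ofCut t ξ := by
  have h : t' = t := by rw [← ψ.2, hψ, Category.id_comp]
  subst h
  have : ψ = ⟨𝟙 T, Category.id_comp _⟩ := Subtype.ext hψ
  rw [this, mkObj, cutMap_id]
  rfl

/-- The class underlying a section. -/
def Obj.cut {T : Scheme.{u}} (x : Obj P T) : CutClasses P x.1 :=
  (equivShrink _).symm x.2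

@[simp]
theorem ofCut_cut {T : Scheme.{u}} (x : Obj P T) : ofCut x.1 x.cut = x := by
  rcases x with ⟨t, s⟩
  change (⟨t, equivShrink _ ((equivShrink _).symm s)⟩ : Obj P T) = ⟨t, s⟩
  rw [Equiv.apply_symm_apply]

@[simp]
theorem cut_ofCut {T : Scheme.{u}} (t : T ⟶ Spec (CommRingCat.of R)) (ξ : CutClasses P t) :
    (ofCut t ξ).cut = ξ :=
  Equiv.symm_apply_apply _ _

@[simp]
theorem ofCut_fst {T : Scheme.{u}} (t : T ⟶ Spec (CommRingCat.of R)) (ξ : CutClasses P t) :
    (ofCut t ξ).1 = t := rfl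

theorem ofCut_injective {T : Scheme.{u}} (t : T ⟶ Spec (CommRingCat.of R)) :
    Function.Injective (ofCut (P := P) t) := by
  intro ξ ξ' h
  have := congrArg (fun x : Obj P T => (⟨x.1, x.cut⟩ : Σ t, CutClasses P t)) h
  simpa using this

/-- Restriction of sections along `g : T' ⟶ T`. -/
def objMap {T T' : Scheme.{u}} (g : T' ⟶ T) (x : Obj P T) : Obj P T' :=
  mkObj (g ≫ x.1) ⟨g, rfl⟩ x.cut

theorem objMap_ofCut {T T' : Scheme.{u}} (g : T' ⟶ T) (t : T ⟶ Spec (CommRingCat.of R))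
    (ξ : CutClasses P t) :
    objMap g (ofCut t ξ) = ofCut (g ≫ t) (cutMap P ⟨g, rfl⟩ ξ) := by
  rw [objMap, cut_ofCut]
  rfl

theorem objMap_id {T : Scheme.{u}} (x : Obj P T) : objMap (𝟙 T) x = x := by
  rw [objMap, mkObj_id _ rfl, ofCut_cut]

theorem objMap_comp {T T' T'' : Scheme.{u}} (g : T' ⟶ T) (g' : T'' ⟶ T') (x : Obj P T) :
    objMap (g' ≫ g) x = objMap g' (objMap g x) := by
  have h1 : objMap g x = ofCut (g ≫ x.1) (cutMap P ⟨g, rfl⟩ x.cut) := rfl
  rw [h1, objMap_ofCut, cutMap_comp]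
  exact mkObj_congr (t := x.1) (t₁ := (g' ≫ g) ≫ x.1) (t₂ := g' ≫ g ≫ x.1)
    (Category.assoc g' g x.1) ⟨g' ≫ g, rfl⟩
    (postComp (⟨g, rfl⟩ : SchemeHomOver (g ≫ x.1) x.1)
      (⟨g', rfl⟩ : SchemeHomOver (g' ≫ g ≫ x.1) (g ≫ x.1))) rfl x.cut

variable (P)

/-- **The cut rigidified Picard functor** as a `Type u`-valued presheaf on `Scheme.{u}`. -/
def cutFunctor : Scheme.{u}ᵒᵖ ⥤ Type u where
  obj T := Obj P T.unop
  map g := TypeCat.ofHom (objMap g.unop)
  map_id _ := TypeCat.homEquiv.injective (funext fun x => objMap_id x)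
  map_comp g g' := TypeCat.homEquiv.injective (funext fun x => objMap_comp g.unop g'.unop x)

end Functor

end

end Fermat.Agent.Jac.Functor32
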