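/-
Programme JAC (S25), brick R1 (helper32), part 3: a scheme representing the cut rigidified
Picard functor carries a `RepresentsRelSubPic` structure.
-/
import Mathlib
import Fermat.Agent.Jac.Functor32.Presheaf

set_option autoImplicit false

universe u

open CategoryTheory CategoryTheory.Limits AlgebraicGeometry AlgebraicGeometry.RelPicard
  NeronModelInfra GoodReductionJacobian Opposite

namespace Fermat.Agent.Jac.Functor32

noncomputable section

variable {R : Type u} [CommRing R] {C : Scheme.{u}} {c : C ⟶ Spec (CommRingCat.of R)}
  {ε : SchemeHomOver (𝟙 (Spec (CommRingCat.of R))) c}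
variable {P : SubPicCondition c ε} [SmallCut P]

open RigidifiedLineBundle

section

variable {J : Scheme.{u}} (h : (cutFunctor P).RepresentableBy J)

/-- The representing bijection, with values in `Obj P T`. -/
def homEquiv' {T : Scheme.{u}} : (T ⟶ J) ≃ Obj P T := h.homEquiv

/-- The universal section over the representing scheme. -/
def universalObj : Obj P J := homEquiv' h (𝟙 J)

/-- The structure morphism of the representing scheme. -/
def toBase : J ⟶ Spec (CommRingCat.of R) := (universalObj h).1

/-- The universal class. -/
def universalCut : CutClasses P (toBase h) := (universalObj h).cut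

theorem homEquiv_eq {T : Scheme.{u}} (g : T ⟶ J) :
    homEquiv' h g = ofCut (g ≫ toBase h) (cutMap P ⟨g, rfl⟩ (universalCut h)) := by
  have h1 : homEquiv' h g = objMap g (universalObj h) := by
    have := h.homEquiv_comp g (𝟙 J)
    rw [Category.comp_id] at this
    exact this
  rw [h1]
  rfl

theorem homEquiv_fst {T : Scheme.{u}} (g : T ⟶ J) : (homEquiv' h g).1 = g ≫ toBase h := by
  rw [homEquiv_eq]
  rfl

/-- The classifying morphism of a cut class. -/
def classify {T : Scheme.{u}} (t : T ⟶ Spec (CommRingCat.of R)) (ξ : CutClasses P t) :
    SchemeHomOver t (toBase h) :=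
  ⟨(homEquiv' h).symm (ofCut t ξ), by
    have := homEquiv_fst h ((homEquiv' h).symm (ofCut t ξ))
    rw [Equiv.apply_symm_apply] at this
    exact this.symm⟩

theorem cutMap_classify {T : Scheme.{u}} (t : T ⟶ Spec (CommRingCat.of R)) (ξ : CutClasses P t) :
    cutMap P (classify h t ξ) (universalCut h) = ξ := by
  apply ofCut_injective (P := P) t
  have h1 := homEquiv_eq h (classify h t ξ).1
  have h2 : homEquiv' h (classify h t ξ).1 = ofCut t ξ := Equiv.apply_symm_apply _ _
  rw [h2] at h1
  rw [h1]
  exact (mkObj_congr (t := toBase h) (classify h t ξ).2 ⟨(classify h t ξ).1, rfl⟩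
    (classify h t ξ) rfl (universalCut h)).symm

theorem classify_unique {T : Scheme.{u}} (t : T ⟶ Spec (CommRingCat.of R)) (ξ : CutClasses P t)
    (g : SchemeHomOver t (toBase h)) (hg : cutMap P g (universalCut h) = ξ) :
    g = classify h t ξ := by
  apply Subtype.ext
  change g.1 = (homEquiv' h).symm (ofCut t ξ)
  rw [Equiv.eq_symm_apply, homEquiv_eq, ← hg]
  exact mkObj_congr (t := toBase h) g.2 ⟨g.1, rfl⟩ g rfl (universalCut h)

/-- The zero section. -/
def zeroSection : SchemeHomOver (𝟙 (Spec (CommRingCat.of R))) (toBase h) :=
  classify h (𝟙 _) ⟨unitClass (𝟙 _), onClasses_unitClass P _⟩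

/-- The designation attached to a representing scheme. -/
def designation : RelativePic0Designation R c where
  P := J
  toBase := toBase h
  zeroSection := (zeroSection h).1
  zeroSection_toBase := (zeroSection h).2

/-- A representative of the universal class. -/
def poincare : RigidifiedLineBundle c ε (toBase h) := Quotient.out (universalCut h).1

theorem mk_poincare : (Quotient.mk _ (poincare h) : Classes c ε (toBase h)) = (universalCut h).1 :=
  Quotient.out_eq _

theorem poincare_mem : P.P (toBase h) (poincare h) := by
  have := (universalCut h).2
  rw [← mk_poincare] at this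
  exact this

/-- **A representing scheme of the cut functor represents the sub-Picard functor** in the sense
of the frozen definition. -/
def representsRelSubPic : RepresentsRelSubPic c ε P (designation h) where
  poincare := poincare h
  poincare_mem := poincare_mem h
  univ := by
    intro T t M hM
    change ∃! g : SchemeHomOver t (toBase h), Nonempty (((poincare h).pullbackAlong g).L ≅ M.L)
    let ξ : CutClasses P t := ⟨Quotient.mk _ M, hM⟩
    refine ⟨classify h t ξ, ?_, fun g hg => ?_⟩
    · have h1 := congrArg Subtype.val (cutMap_classify h t ξ)
      rw [cutMap_val, ← mk_poincare, classesMap_mk] at h1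
      exact Quotient.exact h1
    · apply classify_unique
      apply Subtype.ext
      rw [cutMap_val, ← mk_poincare, classesMap_mk]
      exact Quotient.sound hg
  zero := by
    have h1 := congrArg Subtype.val
      (cutMap_classify h (𝟙 _) ⟨unitClass (𝟙 _), onClasses_unitClass P _⟩)
    rw [cutMap_val, ← mk_poincare, classesMap_mk] at h1
    exact Quotient.exact h1

end

end

end Fermat.Agent.Jac.Functor32
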