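/-
Programme JAC (S25), brick R1 (helper32), part 2: the cut rigidified Picard functor is a Zariski
sheaf as soon as classes of rigidified line bundles satisfy descent for open covers of the base.
-/
import Mathlib
import Fermat.Agent.Jac.Functor32.Presheaf

set_option autoImplicit false

universe u

open CategoryTheory CategoryTheory.Limits AlgebraicGeometry AlgebraicGeometry.RelPicard
  NeronModelInfra Opposite

namespace Fermat.Agent.Jac.Functor32

noncomputable section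

variable {R : Type u} [CommRing R] {C : Scheme.{u}} {c : C ⟶ Spec (CommRingCat.of R)}
  {ε : SchemeHomOver (𝟙 (Spec (CommRingCat.of R))) c}

open RigidifiedLineBundle

/-- Zariski descent for classes of rigidified line bundles satisfying `P`, over open covers of
the base (indexed in `Type u`). -/
structure CutDescent (P : SubPicCondition c ε) : Prop where
  /-- classes are determined locally on the base -/
  sep : ∀ {T : Scheme.{u}} (t : T ⟶ Spec (CommRingCat.of R)) (𝓤 : Scheme.OpenCover.{u} T)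
    (ξ ξ' : Classes c ε t),
    (∀ i, classesMap (⟨𝓤.f i, rfl⟩ : SchemeHomOver (𝓤.f i ≫ t) t) ξ =
      classesMap (⟨𝓤.f i, rfl⟩ : SchemeHomOver (𝓤.f i ≫ t) t) ξ') → ξ = ξ'
  /-- compatible local classes glue -/
  glue : ∀ {T : Scheme.{u}} (t : T ⟶ Spec (CommRingCat.of R)) (𝓤 : Scheme.OpenCover.{u} T)
    (ξ : ∀ i, Classes c ε (𝓤.f i ≫ t)),
    (∀ i j,
      classesMap (⟨pullback.fst (𝓤.f i) (𝓤.f j), rfl⟩ :
        SchemeHomOver (pullback.fst (𝓤.f i) (𝓤.f j) ≫ 𝓤.f i ≫ t) (𝓤.f i ≫ t)) (ξ i) =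
      classesMap (⟨pullback.snd (𝓤.f i) (𝓤.f j), (pullback.condition_assoc t).symm⟩ :
        SchemeHomOver (pullback.fst (𝓤.f i) (𝓤.f j) ≫ 𝓤.f i ≫ t) (𝓤.f j ≫ t)) (ξ j)) →
    ∃ ξ₀ : Classes c ε t,
      ∀ i, classesMap (⟨𝓤.f i, rfl⟩ : SchemeHomOver (𝓤.f i ≫ t) t) ξ₀ = ξ i
  /-- the condition `P` is local on the base -/
  cut_local : ∀ {T : Scheme.{u}} (t : T ⟶ Spec (CommRingCat.of R)) (𝓤 : Scheme.OpenCover.{u} T)
    (ξ : Classes c ε t),
    (∀ i, onClasses P (𝓤.f i ≫ t)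
      (classesMap (⟨𝓤.f i, rfl⟩ : SchemeHomOver (𝓤.f i ≫ t) t) ξ)) → onClasses P t ξ

variable {P : SubPicCondition c ε} [SmallCut P]

/-- Sections with prescribed structure map are of the form `ofCut`. -/
theorem exists_eq_ofCut {T : Scheme.{u}} (x : Obj P T) {t : T ⟶ Spec (CommRingCat.of R)}
    (h : x.1 = t) : ∃ ξ : CutClasses P t, x = ofCut t ξ := by
  subst h
  exact ⟨x.cut, (ofCut_cut x).symm⟩

theorem objMap_fst {T T' : Scheme.{u}} (g : T' ⟶ T) (x : Obj P T) : (objMap g x).1 = g ≫ x.1 :=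
  rfl

theorem isSheafFor_cutFunctor (hP : CutDescent P) {T : Scheme.{u}} (𝓤 : Scheme.OpenCover.{u} T) :
    Presieve.IsSheafFor (cutFunctor P) (Presieve.ofArrows 𝓤.X 𝓤.f) := by
  rw [Presieve.isSheafFor_arrows_iff_pullbacks]
  intro x hx
  -- unfold the presheaf structure
  replace hx : ∀ i j, objMap (pullback.fst (𝓤.f i) (𝓤.f j)) (x i) =
      objMap (pullback.snd (𝓤.f i) (𝓤.f j)) (x j) := hx
  change ∃! y : Obj P T, ∀ i, objMap (𝓤.f i) y = x i
  -- glue the structure maps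
  obtain ⟨t, ht⟩ : ∃ t : T ⟶ Spec (CommRingCat.of R), ∀ i, (x i).1 = 𝓤.f i ≫ t :=
    ⟨𝓤.glueMorphisms (fun i => (x i).1) (fun i j => congrArg Sigma.fst (hx i j)),
      fun i => (𝓤.ι_glueMorphisms (fun i => (x i).1) _ i).symm⟩
  choose ξ hξ using fun i => exists_eq_ofCut (x i) (ht i)
  obtain rfl : x = fun i => ofCut (𝓤.f i ≫ t) (ξ i) := funext hξ
  clear hξ ht
  -- compatibility of the classes
  have hcompat : ∀ i j,
      cutMap P (⟨pullback.fst (𝓤.f i) (𝓤.f j), rfl⟩ :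
        SchemeHomOver (pullback.fst (𝓤.f i) (𝓤.f j) ≫ 𝓤.f i ≫ t) (𝓤.f i ≫ t)) (ξ i) =
      cutMap P (⟨pullback.snd (𝓤.f i) (𝓤.f j), (pullback.condition_assoc t).symm⟩ :
        SchemeHomOver (pullback.fst (𝓤.f i) (𝓤.f j) ≫ 𝓤.f i ≫ t) (𝓤.f j ≫ t)) (ξ j) := by
    intro i j
    apply ofCut_injective (P := P) (pullback.fst (𝓤.f i) (𝓤.f j) ≫ 𝓤.f i ≫ t)
    have h1 : ofCut (pullback.fst (𝓤.f i) (𝓤.f j) ≫ 𝓤.f i ≫ t)
        (cutMap P ⟨pullback.fst (𝓤.f i) (𝓤.f j), rfl⟩ (ξ i)) =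
        ofCut (pullback.snd (𝓤.f i) (𝓤.f j) ≫ 𝓤.f j ≫ t)
        (cutMap P ⟨pullback.snd (𝓤.f i) (𝓤.f j), rfl⟩ (ξ j)) := by
      rw [← objMap_ofCut, ← objMap_ofCut]
      exact hx i j
    rw [h1]
    exact mkObj_congr (t := 𝓤.f j ≫ t) (pullback.condition_assoc t).symm
      ⟨pullback.snd (𝓤.f i) (𝓤.f j), rfl⟩
      ⟨pullback.snd (𝓤.f i) (𝓤.f j), (pullback.condition_assoc t).symm⟩ rfl (ξ j)
  obtain ⟨ξ₀, hξ₀⟩ := hP.glue t 𝓤 (fun i => (ξ i).1)
    (fun i j => congrArg Subtype.val (hcompat i j))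
  have hcut : onClasses P t ξ₀ := hP.cut_local t 𝓤 ξ₀ (fun i => by rw [hξ₀ i]; exact (ξ i).2)
  let ξc : CutClasses P t := ⟨ξ₀, hcut⟩
  refine ⟨ofCut t ξc, fun i => ?_, fun y hy => ?_⟩
  · change objMap (𝓤.f i) (ofCut t ξc) = ofCut (𝓤.f i ≫ t) (ξ i)
    rw [objMap_ofCut]
    congr 1
    exact Subtype.ext (hξ₀ i)
  · replace hy : ∀ i, objMap (𝓤.f i) y = ofCut (𝓤.f i ≫ t) (ξ i) := hy
    have hy1 : y.1 = t := by
      apply 𝓤.hom_ext
      intro i
      exact congrArg Sigma.fst (hy i)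
    obtain ⟨η, rfl⟩ := exists_eq_ofCut y hy1
    congr 1
    apply Subtype.ext
    apply hP.sep t 𝓤
    intro i
    have h2 := hy i
    rw [objMap_ofCut] at h2
    rw [hξ₀ i]
    exact congrArg Subtype.val (ofCut_injective _ h2)

/-- **The cut rigidified Picard functor is a Zariski sheaf**, given descent for classes. -/
theorem isSheaf_cutFunctor (hP : CutDescent P) :
    Presheaf.IsSheaf Scheme.zariskiTopology (cutFunctor P) := by
  rw [isSheaf_iff_isSheaf_of_type, Scheme.zariskiTopology, Scheme.grothendieckTopology,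
    Precoverage.isSheaf_toGrothendieck_iff_of_isStableUnderBaseChange_of_small.{u}]
  intro T (𝓤 : Scheme.OpenCover.{u} T)
  exact isSheafFor_cutFunctor hP 𝓤

/-- The cut rigidified Picard functor as a sheaf for the Zariski topology. -/
def cutSheaf (hP : CutDescent P) : Sheaf Scheme.zariskiTopology.{u} (Type u) :=
  ⟨cutFunctor P, isSheaf_cutFunctor hP⟩

end

end Fermat.Agent.Jac.Functor32
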